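import Fermat.Agent.MzC.Char
import Fermat.Agent.Flat.KumI

/-!
# Connected finite flat group schemes whose dual has trivial constituents are multiplicative
-/

set_option autoImplicit false
set_option linter.unusedSectionVars false
set_option linter.style.haveILetI false

noncomputable section

namespace Fermat.Agent.MzC

open Fermat.Agent.Flat Fermat.Agent.Places Fermat.Agent.RedMod Fermat.Agent.FFG
open Fermat.Agent.FlatRam

section generic

/-- characters of a group with values in a field -/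
def Ch (V L : Type) [AddCommGroup V] [Field L] : Type := Multiplicative V →* Lˣ

variable {V L : Type} [AddCommGroup V] [Field L]

instance : CommGroup (Ch V L) := inferInstanceAs (CommGroup (Multiplicative V →* Lˣ))

/-- the function of a character -/
def gc (χ : Ch V L) (v : V) : L := ((show Multiplicative V →* Lˣ from χ) (Multiplicative.ofAdd v) : Lˣ)

theorem gc_add (χ : Ch V L) (u v : V) : gc χ (u + v) = gc χ u * gc χ v := by
  rw [gc, ofAdd_add, map_mul, Units.val_mul]; rfl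

theorem gc_zero (χ : Ch V L) : gc χ 0 = 1 := by
  rw [gc, ofAdd_zero, map_one]; rfl

theorem gc_mul (χ χ' : Ch V L) : gc (χ * χ') = gc χ * gc χ' := rfl

theorem gc_one : gc (1 : Ch V L) = 1 := rfl

theorem gc_ne_zero (χ : Ch V L) (v : V) : gc χ v ≠ 0 := Units.ne_zero _

theorem gc_neg (χ : Ch V L) (v : V) : gc χ (-v) = (gc χ v)⁻¹ := by
  have := gc_add χ v (-v)
  rw [add_neg_cancel, gc_zero] at this
  exact eq_inv_of_mul_eq_one_right this.symm

theorem gc_nsmul (χ : Ch V L) (m : ℕ) (v : V) : gc χ (m • v) = gc χ v ^ m := by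
  induction m with
  | zero => rw [zero_smul, gc_zero, pow_zero]
  | succ m ih => rw [succ_nsmul, gc_add, ih, pow_succ]

theorem gc_pow (χ : Ch V L) (m : ℕ) : gc (χ ^ m) = gc χ ^ m := by
  induction m with
  | zero => rw [pow_zero, pow_zero, gc_one]
  | succ m ih => rw [pow_succ, gc_mul, ih, pow_succ]

theorem gc_inv_mul (χ : Ch V L) : gc χ⁻¹ * gc χ = 1 := by
  rw [← gc_mul, inv_mul_cancel, gc_one]

theorem gc_injective : Function.Injective (gc (V := V) (L := L)) := by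
  intro χ χ' h
  refine MonoidHom.ext fun v => Units.ext ?_
  exact congrFun h v.toAdd

/-- conjugation of characters -/
def Ch.conj (σ : L →+* L) (a : V →+ V) (χ : Ch V L) : Ch V L :=
  (Units.map (σ : L →* L)).comp ((show Multiplicative V →* Lˣ from χ).comp
    (AddMonoidHom.toMultiplicative a))

theorem gc_conj (σ : L →+* L) (a : V →+ V) (χ : Ch V L) (v : V) :
    gc (χ.conj σ a) v = σ (gc χ (a v)) := rfl

theorem finite_ch (p : ℕ) [NeZero p] [Finite V] (X : Set (Ch V L)) (hX : ∀ χ ∈ X, χ ^ p = 1) :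
    X.Finite := by
  classical
  have hmem : ∀ (χ : X) (v : V), gc (χ : Ch V L) v ∈ Polynomial.nthRootsFinset p (1 : L) :=
    fun χ v => by
      rw [Polynomial.mem_nthRootsFinset (NeZero.pos p), ← Pi.pow_apply, ← gc_pow, hX _ χ.2, gc_one]
      rfl
  haveI : Finite (V → (Polynomial.nthRootsFinset p (1 : L))) := inferInstance
  haveI : Finite X := Finite.of_injective (fun (χ : X) (v : V) =>
    (⟨gc (χ : Ch V L) v, hmem χ v⟩ : (Polynomial.nthRootsFinset p (1 : L)))) (by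
      intro χ χ' h
      apply Subtype.ext
      apply gc_injective
      funext v
      exact congrArg Subtype.val (congrFun h v))
  exact X.toFinite

theorem exists_ch_ne_one [Finite V] [IsAlgClosed L] [CharZero L] {v : V} (hv : v ≠ 0) :
    ∃ χ : Ch V L, gc χ v ≠ 1 := by
  have hne' : Multiplicative.ofAdd v ≠ 1 := hv
  haveI : HasEnoughRootsOfUnity L (Monoid.exponent (Multiplicative V)) := inferInstance
  obtain ⟨χ, hχ⟩ := CommGroup.exists_apply_ne_one_of_hasEnoughRootsOfUnity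
    (Multiplicative V) L hne'
  exact ⟨χ, fun h => hχ (Units.ext h)⟩

end generic

local notation "Ω" => AlgebraicClosure ℚ

variable {A : ValuationSubring (AlgebraicClosure ℚ)} {p : ℕ} [Fact p.Prime]
variable {V : Type} [AddCommGroup V] [Finite V] {act : (Ω ≃ₐ[R0 A] Ω) → V → V}
  {H : Subalgebra (R0 A) (V → Ω)}

namespace BasisD

variable {n : ℕ} {b : Fin n → V → Ω} (hb : BasisD act H n b) (hH : IsHopfFn act H)

include hb in
theorem zero_mem' : (0 : V → Ω) ∈ Bs b (A.nonunits : Set Ω) :=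
  ⟨0, fun _ => zero_mem_nonunits A, fun u => by simp⟩

include hb hH in
theorem gc_int (χ : Ch V Ω) : gc χ ∈ Bs b (A : Set Ω) :=
  hb.char_int hH (gc_add χ) (gc_zero χ)

/-- the characters congruent to one -/
def K1 (hb : BasisD act H n b) (hH : IsHopfFn act H) : Submonoid (Ch V Ω) where
  carrier := {χ | gc χ - 1 ∈ Bs b (A.nonunits : Set Ω)}
  one_mem' := by
    change gc (1 : Ch V Ω) - 1 ∈ Bs b (A.nonunits : Set Ω)
    rw [gc_one, sub_self]
    exact hb.zero_mem'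
  mul_mem' := by
    intro χ χ' h h'
    change gc (χ * χ') - 1 ∈ Bs b (A.nonunits : Set Ω)
    have : gc (χ * χ') - 1 = gc χ * (gc χ' - 1) + (gc χ - 1) := by
      rw [gc_mul]; ring
    rw [this]
    exact Bs_add (hb.mulN (hb.gc_int hH χ) h') h

theorem mem_K1 {χ : Ch V Ω} : χ ∈ K1 hb hH ↔
    gc χ - 1 ∈ Bs b (A.nonunits : Set Ω) := Iff.rfl

/-- the characters of order `p` congruent to one -/
def Kp (p : ℕ) [Fact p.Prime] (hb : BasisD act H n b) (hH : IsHopfFn act H) :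
    Subgroup (Ch V Ω) where
  carrier := {χ | χ ^ p = 1 ∧ χ ∈ K1 hb hH}
  one_mem' := ⟨one_pow _, one_mem _⟩
  mul_mem' := fun h h' => ⟨by rw [mul_pow, h.1, h'.1, one_mul], mul_mem h.2 h'.2⟩
  inv_mem' := fun {χ} h => by
    refine ⟨by rw [inv_pow, h.1, inv_one], ?_⟩
    have hp : 0 < p := (Fact.out : p.Prime).pos
    have h1 : χ⁻¹ = χ ^ (p - 1) := by
      have h2 : χ ^ (p - 1 + 1) = 1 := by rw [Nat.sub_add_cancel hp]; exact h.1
      rw [pow_succ] at h2
      exact (eq_inv_of_mul_eq_one_left h2).symm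
    rw [h1]
    exact pow_mem h.2 _

theorem mem_Kp {χ : Ch V Ω} : χ ∈ Kp p hb hH ↔ χ ^ p = 1 ∧ χ ∈ K1 hb hH := Iff.rfl

/-- the action on `V` as an additive homomorphism -/
def actM (hH : IsHopfFn act H) (σ : Ω ≃ₐ[R0 A] Ω) : V →+ V where
  toFun v := act σ v
  map_zero' := hH.act_zero σ
  map_add' u v := act_add hH σ u v

/-- the action on characters -/
def actK (hH : IsHopfFn act H) (σ : Ω ≃ₐ[R0 A] Ω) (χ : Ch V Ω) : Ch V Ω :=
  χ.conj ((σ : Ω ≃ₐ[R0 A] Ω) : Ω →+* Ω) (actM hH σ⁻¹)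

theorem gc_actK (σ : Ω ≃ₐ[R0 A] Ω) (χ : Ch V Ω) (v : V) :
    gc (actK hH σ χ) v = σ (gc χ (act σ⁻¹ v)) := rfl

theorem actK_one' (σ : Ω ≃ₐ[R0 A] Ω) : actK hH σ 1 = 1 := by
  apply gc_injective
  funext v
  rw [gc_actK, gc_one, Pi.one_apply, map_one]
  rfl

theorem actK_mul' (σ : Ω ≃ₐ[R0 A] Ω) (χ χ' : Ch V Ω) :
    actK hH σ (χ * χ') = actK hH σ χ * actK hH σ χ' := by
  apply gc_injective
  funext v
  rw [gc_actK, gc_mul, gc_mul, Pi.mul_apply, map_mul]
  rfl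

theorem actK_pow (σ : Ω ≃ₐ[R0 A] Ω) (χ : Ch V Ω) (m : ℕ) :
    actK hH σ (χ ^ m) = actK hH σ χ ^ m := by
  induction m with
  | zero => rw [pow_zero, pow_zero, actK_one']
  | succ m ih => rw [pow_succ, actK_mul', ih, pow_succ]

include hb in
theorem actK_mem1 (σ : Ω ≃ₐ[R0 A] Ω) {χ : Ch V Ω} (hχ : χ ∈ K1 hb hH) :
    actK hH σ χ ∈ K1 hb hH := by
  rw [mem_K1] at hχ ⊢
  have h2 := hb.conj_sub_mem hH (hb.gc_int hH χ) σ
  have h3 : gc (actK hH σ χ) - 1 = ((fun u => σ (gc χ (act σ⁻¹ u))) - gc χ) + (gc χ - 1) := by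
    have : gc (actK hH σ χ) = fun u => σ (gc χ (act σ⁻¹ u)) := rfl
    rw [this]; ring
  rw [h3]
  exact Bs_add h2 hχ

theorem actK_mem (σ : Ω ≃ₐ[R0 A] Ω) {χ : Ch V Ω} (hχ : χ ∈ Kp p hb hH) :
    actK hH σ χ ∈ Kp p hb hH :=
  ⟨by rw [← actK_pow, hχ.1, actK_one'], hb.actK_mem1 hH σ hχ.2⟩

theorem actK_one (χ : Ch V Ω) : actK hH 1 χ = χ := by
  apply gc_injective
  funext v
  rw [gc_actK, inv_one, act_one hH.toIsFn]
  rfl

theorem actK_mul (σ τ : Ω ≃ₐ[R0 A] Ω) (χ : Ch V Ω) :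
    actK hH (σ * τ) χ = actK hH σ (actK hH τ χ) := by
  apply gc_injective
  funext v
  rw [gc_actK, gc_actK, gc_actK, mul_inv_rev, act_mul hH.toIsFn]
  rfl

/-- the action on characters of order `p` congruent to one -/
@[reducible] def mulActionKp (p : ℕ) [Fact p.Prime] (hb : BasisD act H n b)
    (hH : IsHopfFn act H) : MulAction (Ω ≃ₐ[R0 A] Ω) (Kp p hb hH) where
  smul σ χ := ⟨actK hH σ χ, actK_mem hb hH σ χ.2⟩
  one_smul χ := Subtype.ext (actK_one hH χ)
  mul_smul σ τ χ := Subtype.ext (actK_mul hH σ τ χ)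

/-- **the key contradiction**: there is no fixed character of order `p` congruent to one. -/
theorem fixed_eq_one (hA : A.LiesOverPrime p) (hb : BasisD act H n b) (hH : IsHopfFn act H)
    (hconn : ∀ T, ∀ f ∈ H, f T - f 0 ∈ A.nonunits) {χ : Ch V Ω}
    (hχ : χ ∈ Kp p hb hH) (hfix : ∀ σ, actK hH σ χ = χ) : χ = 1 := by
  have hp : p.Prime := Fact.out
  apply gc_injective
  funext v
  by_contra hne
  have hne1 : gc χ v ≠ 1 := hne
  obtain ⟨hχp, δ, hδ, hδ'⟩ := hχ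
  have hδfix : ∀ i, ∀ σ : Ω ≃ₐ[R0 A] Ω, σ (δ i) = δ i := by
    intro i σ
    refine hb.coeff (c := fun i => σ (δ i)) (d := δ) (fun u => ?_) i
    rw [← hb.conj_coeff hH hδ' σ u, ← hδ', Pi.sub_apply, Pi.sub_apply, Pi.one_apply, Pi.one_apply,
      map_sub, map_one]
    congr 1
    have := congrFun (congrArg gc (hfix σ)) u
    rw [gc_actK] at this
    exact this
  have hδK : ∀ i, δ i ∈ K0 A := fun i => mem_K0_of_fix A (hδfix i)
  have hδA : ∀ i, δ i ∈ A := fun i => mem_of_mem_nonunits A (hδ i)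
  choose ε hε using fun i => R0_p_dvd hA (x := (⟨δ i, hδA i, hδK i⟩ : R0 A)) (hδ i)
  have hε' : ∀ i, δ i = p * (ε i : Ω) := by
    intro i
    have := congrArg (fun z : R0 A => (z : Ω)) (hε i)
    push_cast at this
    exact this
  let f : V → Ω := fun u => ∑ i, (ε i : Ω) * b i u
  have hf : f ∈ H := by
    have h1 : f = ∑ i, ε i • b i := by
      funext u
      rw [Finset.sum_apply]
      rfl
    rw [h1]
    exact Subalgebra.sum_mem _ fun i _ => Subalgebra.smul_mem _ (hb.mem i) _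
  have h2f : ∀ u, p * f u = gc χ u - 1 := by
    intro u
    have h1 := hδ' u
    rw [Pi.sub_apply, Pi.one_apply] at h1
    rw [h1, Finset.mul_sum]
    refine Finset.sum_congr rfl fun i _ => ?_
    rw [hε']; ring
  have hp0 : (p : Ω) ≠ 0 := by exact_mod_cast hp.ne_zero
  have h0 : f 0 = 0 := by
    have h1 := h2f 0
    rw [gc_zero, sub_self] at h1
    exact (mul_eq_zero.1 h1).resolve_left hp0
  have hv := hconn v f hf
  rw [h0, sub_zero] at hv
  have hζ : IsPrimitiveRoot (gc χ v) p := by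
    have h1 : gc χ v ^ p = 1 := by
      have := congrFun (congrArg gc hχp) v
      rw [gc_pow, Pi.pow_apply, gc_one] at this
      exact this
    rw [← orderOf_eq_prime h1 hne1]
    exact IsPrimitiveRoot.orderOf _
  have hfv0 : f v ≠ 0 := by
    intro h1
    have h2 := h2f v
    rw [h1, mul_zero] at h2
    exact hne1 (sub_eq_zero.1 h2.symm)
  have h1 := RVal.w_zeta (V := rval A p hA) hζ
  rw [← h2f v, RVal.w_mul hp0 hfv0] at h1
  have h2 : 0 < (rval A p hA).w (f v) := (wA_pos_iff hA hfv0).2 hv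
  have h3 : (rval A p hA).w (p : Ω) = 1 := (rval A p hA).w_p
  rw [h3] at h1
  have h4 : (1 : ℚ) ≤ (p : ℚ) - 1 := by
    have : (2 : ℚ) ≤ p := by exact_mod_cast hp.two_le
    linarith
  nlinarith

theorem finite_Kp (hb : BasisD act H n b) (hH : IsHopfFn act H) : Finite (Kp p hb hH) := by
  haveI : NeZero p := ⟨(Fact.out : p.Prime).ne_zero⟩
  exact (finite_ch p (Kp p hb hH : Set (Ch V Ω)) fun χ hχ => hχ.1).to_subtype

/-- a `p`-group has nonzero fixed vectors -/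
theorem Kp_eq_bot (hA : A.LiesOverPrime p) (hb : BasisD act H n b) (hH : IsHopfFn act H)
    (hconn : ∀ T, ∀ f ∈ H, f T - f 0 ∈ A.nonunits)
    (hI : ∀ σ : Ω ≃ₐ[R0 A] Ω, ∃ m : ℕ, ∀ χ, actK hH (σ ^ p ^ m) χ = χ) : Kp p hb hH = ⊥ := by
  classical
  haveI := finite_Kp (p := p) hb hH
  by_contra hne
  obtain ⟨χ, hχ, hχ0⟩ : ∃ χ ∈ Kp p hb hH, χ ≠ 1 := by
    obtain ⟨x, hx⟩ := Subgroup.ne_bot_iff_exists_ne_one.1 hne
    exact ⟨x.1, x.2, fun h => hx (Subtype.ext h)⟩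
  letI := mulActionKp p hb hH
  have hG : IsPGroup p (MulAction.toPermHom (Ω ≃ₐ[R0 A] Ω) (Kp p hb hH)).range := by
    rintro ⟨_, σ, rfl⟩
    obtain ⟨m, hm⟩ := hI σ
    refine ⟨m, Subtype.ext ?_⟩
    rw [Subgroup.coe_pow, ← map_pow]
    apply Equiv.ext
    intro ψ
    apply Subtype.ext
    exact hm ψ
  have h2 : p ∣ Nat.card (Kp p hb hH) := by
    have h3 : orderOf (⟨χ, hχ⟩ : Kp p hb hH) = p := by
      apply orderOf_eq_prime
      · exact Subtype.ext hχ.1
      · intro h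
        exact hχ0 (congrArg Subtype.val h)
    have h4 := orderOf_dvd_natCard (⟨χ, hχ⟩ : Kp p hb hH)
    rw [h3] at h4
    exact h4
  obtain ⟨ψ, hψ, hne'⟩ := hG.exists_fixed_point_of_prime_dvd_card_of_fixed_point (Kp p hb hH) h2
    (a := 1) (by
      rintro ⟨_, σ, rfl⟩
      apply Subtype.ext
      exact actK_one' hH σ)
  apply hne'
  symm
  apply Subtype.ext
  refine fixed_eq_one hA hb hH hconn ψ.2 fun σ => ?_
  exact congrArg Subtype.val (hψ ⟨_, σ, rfl⟩)

/-- **Connected with trivial dual constituents implies multiplicative**: all characters are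
fixed. -/
theorem char_fixed (hA : A.LiesOverPrime p) (hb : BasisD act H n b) (hH : IsHopfFn act H)
    (hconn : ∀ T, ∀ f ∈ H, f T - f 0 ∈ A.nonunits)
    (hI : ∀ σ : Ω ≃ₐ[R0 A] Ω, ∃ m : ℕ, ∀ χ, actK hH (σ ^ p ^ m) χ = χ)
    {k : ℕ} (hk : ∀ v : V, p ^ k • v = 0) (χ : Ch V Ω) (σ : Ω ≃ₐ[R0 A] Ω) :
    actK hH σ χ = χ := by
  classical
  -- the quotient character
  let q : Ch V Ω := actK hH σ χ * χ⁻¹
  have hqm : q ∈ K1 hb hH := by
    rw [mem_K1]
    have h1 : gc q - 1 = gc χ⁻¹ * ((fun u => σ (gc χ (act σ⁻¹ u))) - gc χ) := by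
      rw [mul_sub, gc_inv_mul, mul_comm]
      rfl
    rw [h1]
    exact hb.mulN (hb.gc_int hH _) (hb.conj_sub_mem hH (hb.gc_int hH χ) σ)
  have hqk : q ^ p ^ k = 1 := by
    apply gc_injective
    funext u
    rw [gc_pow, Pi.pow_apply, ← gc_nsmul, hk, gc_zero]
    rfl
  -- `q = 1`
  have hmain : ∀ m : ℕ, q ^ p ^ m = 1 → q = 1 := by
    intro m
    induction m with
    | zero => intro h; rwa [pow_zero, pow_one] at h
    | succ m ih =>
      intro h
      apply ih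
      have h1 : q ^ p ^ m ∈ Kp p hb hH := by
        refine ⟨?_, pow_mem hqm _⟩
        rw [← pow_mul, ← pow_succ]
        exact h
      rwa [Kp_eq_bot hA hb hH hconn hI, Subgroup.mem_bot] at h1
  have h1 := hmain k hqk
  exact mul_inv_eq_one.1 h1

end BasisD

/-- **Connected with trivial dual constituents implies multiplicative**: the automorphisms act
through the cyclotomic character. -/
theorem act_eq_nsmul (hA : A.LiesOverPrime p) (hH : IsHopfFn act H)
    (hconn : ∀ T, ∀ f ∈ H, f T - f 0 ∈ A.nonunits) {k : ℕ} (hk : ∀ v : V, p ^ k • v = 0)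
    (hI : ∀ (σ : Ω ≃ₐ[R0 A] Ω) (c : ℕ), (∀ ζ : Ω, ζ ^ p ^ k = 1 → σ ζ = ζ ^ c) →
      ∃ m : ℕ, ∀ v, act (σ ^ p ^ m) v = c ^ p ^ m • v)
    (σ : Ω ≃ₐ[R0 A] Ω) {c : ℕ}
    (hc : ∀ ζ : Ω, ζ ^ p ^ k = 1 → σ ζ = ζ ^ c) (v : V) : act σ v = c • v := by
  classical
  obtain ⟨n, b, hb⟩ := exists_basisD hA hH
  have hgk : ∀ (χ : Ch V Ω) (v : V), gc χ v ^ p ^ k = 1 := fun χ v => by
    rw [← gc_nsmul, hk, gc_zero]
  have hcσ : ∀ (σ : Ω ≃ₐ[R0 A] Ω) (c : ℕ), (∀ ζ : Ω, ζ ^ p ^ k = 1 → σ ζ = ζ ^ c) → ∀ (m : ℕ),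
      ∀ ζ : Ω, ζ ^ p ^ k = 1 → (σ ^ m) ζ = ζ ^ c ^ m := by
    intro σ c hc m
    induction m with
    | zero => intro ζ _; rw [pow_zero, pow_zero, pow_one]; rfl
    | succ m ih =>
      intro ζ hζ
      rw [pow_succ]
      change (σ ^ m) (σ ζ) = _
      rw [hc ζ hζ, map_pow, ih ζ hζ, ← pow_mul, ← pow_succ]
  have hI' : ∀ σ : Ω ≃ₐ[R0 A] Ω, ∃ m : ℕ, ∀ χ, BasisD.actK hH (σ ^ p ^ m) χ = χ := by
    intro σ
    obtain ⟨c, hc⟩ : ∃ c : ℕ, ∀ ζ : Ω, ζ ^ p ^ k = 1 → σ ζ = ζ ^ c := by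
      haveI : NeZero (p ^ k) := ⟨pow_ne_zero _ (Fact.out : p.Prime).ne_zero⟩
      obtain ⟨ζ0, hζ0⟩ := HasEnoughRootsOfUnity.exists_primitiveRoot Ω (p ^ k)
      obtain ⟨c, -, hc⟩ := hζ0.eq_pow_of_pow_eq_one (ξ := σ ζ0) (by
        rw [← map_pow, hζ0.pow_eq_one, map_one])
      refine ⟨c, fun ζ hζ => ?_⟩
      obtain ⟨i, -, rfl⟩ := hζ0.eq_pow_of_pow_eq_one hζ
      rw [map_pow, ← hc, ← pow_mul, ← pow_mul, mul_comm]
    obtain ⟨m, hm⟩ := hI σ c hc
    refine ⟨m, fun χ => ?_⟩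
    apply gc_injective
    funext v
    obtain ⟨u, rfl⟩ : ∃ u, act (σ ^ p ^ m) u = v := ⟨_, act_act_inv hH.toIsFn _ v⟩
    rw [BasisD.gc_actK, act_inv_act hH.toIsFn, hcσ σ c hc _ _ (hgk χ u), hm, gc_nsmul]
  by_contra hne
  obtain ⟨χ, hχ⟩ := exists_ch_ne_one (L := Ω) (sub_ne_zero.2 hne)
  have h1 := congrFun (congrArg gc (hb.char_fixed hA hH hconn hI' hk χ σ)) (act σ v)
  rw [BasisD.gc_actK, act_inv_act hH.toIsFn, hc _ (hgk χ v), ← gc_nsmul] at h1
  apply hχ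
  have h3 := gc_add χ (act σ v - c • v) (c • v)
  rw [sub_add_cancel, ← h1] at h3
  exact (mul_right_cancel₀ (gc_ne_zero χ _) (by rw [one_mul]; exact h3)).symm

end Fermat.Agent.MzC
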