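import Fermat.Agent.MzC.Char
import Fermat.Agent.FFG.FlatC

/-!
# Invariant functionals vanish on connected points (odd residue characteristic)
-/

set_option autoImplicit false
set_option linter.unusedSectionVars false
set_option linter.style.haveILetI false

noncomputable section

namespace Fermat.Agent.MzC

open Fermat.Agent.Flat Fermat.Agent.Places Fermat.Agent.RedMod Fermat.Agent.FFG
open scoped TensorProduct
open WithConv

local notation "Ω" => AlgebraicClosure ℚ

variable {A : ValuationSubring (AlgebraicClosure ℚ)} {p : ℕ} [Fact p.Prime]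
variable {V : Type} [AddCommGroup V] [Finite V] {act : (Ω ≃ₐ[R0 A] Ω) → V → V}
  {H : Subalgebra (R0 A) (V → Ω)}

/-- **Lemma A** for rings of functions. -/
theorem psi_eq_zero_fn (hA : A.LiesOverPrime p) (hp2 : p ≠ 2) (hH : IsHopfFn act H)
    (ψ : V →+ ZMod p) (hψ : ∀ σ v, ψ (act σ v) = ψ v) {T : V}
    (hT : ∀ f ∈ H, f T - f 0 ∈ A.nonunits) : ψ T = 0 := by
  classical
  haveI := isPrincipalIdealRing_R0 hA
  letI := hH.hopf
  haveI : Module.Finite (R0 A) H := hH.finite
  haveI : IsScalarTower (R0 A) (R0 A) Ω :=
    IsScalarTower.of_algebraMap_eq fun _ => rfl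
  let G : PtGrp A (R0 A) H V :=
    { pt := fun v => evP H v
      inj := fun u v h => hH.sep _ _ fun x hx => congrArg (fun φ : H →ₐ[R0 A] Ω => φ ⟨x, hx⟩) h
      add := fun u v => by
        apply ofConv_injective
        apply AlgHom.ext
        intro x
        have h1 : ∀ z : H ⊗[R0 A] H, Algebra.TensorProduct.lift (S := R0 A) (evP H u) (evP H v)
            (fun _ _ => Commute.all _ _) z = hH.ev2 z (u, v) := by
          intro z
          induction z using TensorProduct.induction_on with
          | zero => simp
          | tmul a b =>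
            rw [Algebra.TensorProduct.lift_tmul, hH.ev2_tmul]
            rfl
          | add a b ha hb => rw [map_add, map_add, Pi.add_apply, ha, hb]
        have h2 := h1 (hH.comulA x)
        rw [hH.ev2_comulA] at h2
        have h3 := AlgHom.convMul_apply (toConv (evP H u)) (toConv (evP H v)) x
        exact (h3.trans h2).symm
      act := fun σ v => act (ofK0 A σ) v
      act_pt := fun σ v => by
        apply AlgHom.ext
        intro x
        rw [conj_apply]
        exact hH.equiv x x.2 (ofK0 A σ) v }
  exact psi_eq_zero' G hA hp2 ψ (fun σ v => hψ _ v) T fun h => hT h h.2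

end Fermat.Agent.MzC
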