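import Fermat.Agent.MzC.SpJ
import Fermat.Agent.MzC.Mult
import Fermat.Agent.MzC.Odd

/-!
# The local structure at `p` of the kernel of reduction of `J₀(N)`
-/

set_option autoImplicit false
set_option linter.unusedSectionVars false
set_option linter.style.haveILetI false

noncomputable section

namespace Fermat.Agent.MzC

open AlgebraicCurve ModularCurve Fermat.Agent.FFG Fermat.Agent.Flat Fermat.Agent.Places
open Fermat.Agent.RedMod

local notation "Ω" => AlgebraicClosure ℚ

local notation "𝒢" => (AlgebraicClosure ℚ) ≃ₐ[ℚ] (AlgebraicClosure ℚ)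

variable {A : ValuationSubring (AlgebraicClosure ℚ)} {p : ℕ} [Fact p.Prime] {N : ℕ} [NeZero N]

/-- the torsion subgroup of `J₀(N)` -/
def JT (N : ℕ) [NeZero N] (m : ℕ) : AddSubgroup (JZero N) where
  carrier := {x | m • x = 0}
  zero_mem' := nsmul_zero _
  add_mem' := fun {a b} (ha : m • a = 0) (hb : m • b = 0) => by
    change m • (a + b) = 0
    rw [nsmul_add, ha, hb, add_zero]
  neg_mem' := fun {a} (ha : m • a = 0) => by
    change m • (-a) = 0
    rw [neg_nsmul, ha, neg_zero]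

theorem mem_JT {m : ℕ} {x : JZero N} : x ∈ JT N m ↔ m • x = 0 := Iff.rfl

instance finite_JT (m : ℕ) [NeZero m] : Finite (JT N m) :=
  (MW.finite_torsion' (K := Ω) (N := N) exists_ιC.some m).to_subtype

theorem smul_mem_JT {m : ℕ} (σ : 𝒢) {x : JZero N} (hx : x ∈ JT N m) : σ • x ∈ JT N m := by
  rw [mem_JT] at hx ⊢
  have h1 := map_nsmul (DistribSMul.toAddMonoidHom (JZero N) σ) m x
  rw [hx, map_zero] at h1
  exact h1.symm

variable {P : Type} [AddCommGroup P] {f : JZero N →+ P}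

section pi

variable {ι : Type} [Fintype ι] {W : Type} [AddCommGroup W] [Finite W]

/-- **Finite flat models with connected kernel of reduction**, for inertia stable finite subgroups
of powers of `J₀(N)`. -/
theorem exists_conn_pi (hf : ConnKer A N f) {act : (Ω ≃ₐ[R0 A] Ω) → W → W}
    (φ : W →+ (ι → JZero N)) (hφ : Function.Injective φ)
    (hφeq : ∀ γ w j, φ (act γ w) j = rq γ • φ w j) :
    ∃ H : Subalgebra (R0 A) (W → Ω), IsHopfFn act H ∧
      ∀ T, (∀ j, f (φ T j) = 0) → ∀ g ∈ H, g T - g 0 ∈ A.nonunits := by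
  classical
  haveI := Fintype.ofFinite W
  haveI : NeZero (Nat.card W) := ⟨Nat.card_pos.ne'⟩
  obtain ⟨H0, hH0, hc⟩ := hf (JT N (Nat.card W))
    (fun σ x => ⟨σ • (x : JZero N), smul_mem_JT σ x.2⟩) (JT N (Nat.card W)).subtype
    Subtype.val_injective (fun σ x => rfl)
  have hmem : ∀ w j, φ w j ∈ JT N (Nat.card W) := fun w j => by
    rw [mem_JT]
    have h1 : Nat.card W • w = 0 := card_nsmul_eq_zero'
    have h2 := congrFun (congrArg φ h1) j
    rw [map_nsmul, map_zero] at h2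
    exact h2
  let i : W →+ (ι → JT N (Nat.card W)) :=
    { toFun := fun w j => ⟨φ w j, hmem w j⟩
      map_zero' := by
        funext j
        apply Subtype.ext
        change φ 0 j = 0
        rw [map_zero]; rfl
      map_add' := fun a b => by
        funext j
        apply Subtype.ext
        change φ (a + b) j = φ a j + φ b j
        rw [map_add]; rfl }
  have hi : Function.Injective i := fun a b h => hφ (by
    funext j
    exact congrArg Subtype.val (congrFun h j))
  have h1 := IsHopfFn.pi (fun _ : ι => hH0)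
  have h2 := h1.restrict (actS := act) hi (fun γ w => by
    funext j
    apply Subtype.ext
    exact hφeq γ w j)
  refine ⟨_, h2, fun T hT g hg => ?_⟩
  obtain ⟨g', hg', rfl⟩ := hg
  change g' (i T) - g' (i 0) ∈ A.nonunits
  rw [map_zero]
  have hint : ∀ g' ∈ piH (fun _ : ι => H0), ∀ x, g' x ∈ A := fun g' hg' x =>
    mem_of_isIntegral_R0 (h1.int g' hg' x)
  induction hg' using Algebra.adjoin_induction with
  | mem x hx =>
    obtain ⟨j, y, hy, rfl⟩ := hx
    exact hc (i T j) (hT j) y hy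
  | algebraMap r =>
    change algebraMap (R0 A) Ω r - algebraMap (R0 A) Ω r ∈ _
    rw [sub_self]
    exact zero_mem_nonunits A
  | add x y _ _ hx hy =>
    have : (x + y) (i T) - (x + y) 0 = (x (i T) - x 0) + (y (i T) - y 0) := by
      simp only [Pi.add_apply]; ring
    rw [this]
    exact add_mem_nonunits A hx hy
  | mul x y hx' hy' hx hy =>
    have : (x * y) (i T) - (x * y) 0 = (x (i T) - x 0) * y (i T) + (y (i T) - y 0) * x 0 := by
      simp only [Pi.mul_apply]; ring
    rw [this]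
    exact add_mem_nonunits A (mul_mem_nonunits A hx (hint _ hy' _))
      (mul_mem_nonunits A hy (hint _ hx' _))

variable {act : 𝒢 → W → W}

/-- **(α2), odd case**: inertia invariant functionals vanish on the kernel of reduction. -/
theorem psi_eq_zero_J (hA : A.LiesOverPrime p) (hp2 : p ≠ 2) (hf : ConnKer A N f)
    (φ : W →+ (ι → JZero N)) (hφ : Function.Injective φ)
    (hφeq : ∀ σ ∈ A.inertiaSubgroupIn ℚ, ∀ w j, φ (act σ w) j = σ • φ w j)
    (ψ : W →+ ZMod p) (hψ : ∀ σ ∈ A.inertiaSubgroupIn ℚ, ∀ w, ψ (act σ w) = ψ w)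
    {T : W} (hT : ∀ j, f (φ T j) = 0) : ψ T = 0 := by
  obtain ⟨H, hH, hc⟩ := exists_conn_pi hf (act := fun γ => act (rq γ)) φ hφ
    (fun γ w j => hφeq _ (rq_mem γ) w j)
  exact psi_eq_zero_fn hA hp2 hH ψ (fun γ w => hψ _ (rq_mem γ) w) (hc T hT)

/-- **(α2), multiplicative part**: if everything is in the kernel of reduction and inertia acts on
the dual through a `p`-group then inertia acts through the cyclotomic character. -/
theorem act_eq_nsmul_J (hA : A.LiesOverPrime p) (hf : ConnKer A N f)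
    (φ : W →+ (ι → JZero N)) (hφ : Function.Injective φ)
    (hφeq : ∀ σ ∈ A.inertiaSubgroupIn ℚ, ∀ w j, φ (act σ w) j = σ • φ w j)
    (hT : ∀ w j, f (φ w j) = 0) {k : ℕ} (hk : ∀ w : W, p ^ k • w = 0)
    (hI : ∀ σ ∈ A.inertiaSubgroupIn ℚ, ∀ c : ℕ, (∀ ζ : Ω, ζ ^ p ^ k = 1 → σ ζ = ζ ^ c) →
      ∃ m : ℕ, ∀ w, act (σ ^ p ^ m) w = c ^ p ^ m • w)
    {σ : 𝒢} (hσ : σ ∈ A.inertiaSubgroupIn ℚ) {c : ℕ}
    (hc : ∀ ζ : Ω, ζ ^ p ^ k = 1 → σ ζ = ζ ^ c) (w : W) : act σ w = c • w := by
  obtain ⟨H, hH, hc'⟩ := exists_conn_pi hf (act := fun γ => act (rq γ)) φ hφ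
    (fun γ w j => hφeq _ (rq_mem γ) w j)
  have hrq : ∀ (γ : Ω ≃ₐ[R0 A] Ω) (m : ℕ), rq (γ ^ m) = rq γ ^ m := by
    intro γ m
    induction m with
    | zero => rfl
    | succ m ih => rw [pow_succ, pow_succ, ← ih]; rfl
  have := act_eq_nsmul hA hH (fun T => hc' T (hT T)) hk (fun γ c hc => by
    obtain ⟨m, hm⟩ := hI (rq γ) (rq_mem γ) c hc
    refine ⟨m, fun v => ?_⟩
    rw [hrq]
    exact hm v) (ofInertia A σ hσ) hc w
  beta_reduce at this
  rwa [rq_ofInertia] at this

end pi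

section nilp

theorem exists_pow_eq' {Q : Type*} [CommRing Q] {p k n : ℕ} (hp : p.Prime) (hk : (p : Q) ^ k = 0)
    {x y : Q} (h : (x - y) ^ n = 0) : ∃ m : ℕ, x ^ p ^ m = y ^ p ^ m := by
  obtain ⟨r, hr⟩ := exists_add_pow_prime_pow_eq hp (x - y) y n
  have h1 : (p : Q) ∣ x ^ p ^ n - y ^ p ^ n := by
    rw [sub_add_cancel] at hr
    have h2 : (x - y) ^ p ^ n = 0 :=
      pow_eq_zero_of_le (Nat.lt_pow_self hp.one_lt).le h
    rw [hr, h2]
    exact ⟨(x - y) * y * r, by ring⟩
  have h2 := dvd_sub_pow_of_dvd_sub h1 k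
  rw [pow_succ, hk, zero_mul, zero_dvd_iff, ← pow_mul, ← pow_mul, ← pow_add, sub_eq_zero] at h2
  exact ⟨n + k, h2⟩

/-- a convenient criterion for the hypothesis of `act_eq_nsmul_J` -/
theorem exists_pow_eq {W : Type*} [AddCommGroup W] {p k : ℕ} (hp : p.Prime)
    (hk : ∀ w : W, p ^ k • w = 0) (a : AddMonoid.End W) (c n : ℕ)
    (h : (a - (c : AddMonoid.End W)) ^ n = 0) :
    ∃ m : ℕ, ∀ w : W, (a ^ p ^ m) w = c ^ p ^ m • w := by
  let φ : Polynomial ℤ →+* AddMonoid.End W :=
    Polynomial.eval₂RingHom' (Int.castRingHom _) a (fun z => Int.cast_commute z a)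
  let Q := Polynomial ℤ ⧸ RingHom.ker φ
  have hφX : φ Polynomial.X = a := by
    change Polynomial.eval₂ _ _ _ = _
    rw [Polynomial.eval₂_X]
  have hφc : φ (c : Polynomial ℤ) = (c : AddMonoid.End W) := map_natCast φ c
  have hk' : ((p : ℕ) : Q) ^ k = 0 := by
    have h1 : ((p : ℕ) : Q) ^ k = Ideal.Quotient.mk (RingHom.ker φ) ((p : Polynomial ℤ) ^ k) := by
      rw [map_pow, map_natCast]
    rw [h1, Ideal.Quotient.eq_zero_iff_mem, RingHom.mem_ker, map_pow, map_natCast]
    ext w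
    have h2 : ((p : AddMonoid.End W) ^ k) w = p ^ k • w := by
      rw [← Nat.cast_pow]
      exact AddMonoid.End.natCast_apply _ w
    rw [h2, hk]
    rfl
  have hn : (Ideal.Quotient.mk (RingHom.ker φ) Polynomial.X -
      Ideal.Quotient.mk (RingHom.ker φ) (c : Polynomial ℤ)) ^ n = 0 := by
    rw [← map_sub, ← map_pow, Ideal.Quotient.eq_zero_iff_mem, RingHom.mem_ker, map_pow, map_sub,
      hφX, hφc, h]
  obtain ⟨m, hm⟩ := exists_pow_eq' hp hk' hn
  refine ⟨m, fun w => ?_⟩
  rw [← map_pow, ← map_pow, Ideal.Quotient.eq, RingHom.mem_ker, map_sub, map_pow, map_pow,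
    hφX, hφc, sub_eq_zero] at hm
  rw [hm, ← Nat.cast_pow]
  exact AddMonoid.End.natCast_apply _ w

end nilp

end Fermat.Agent.MzC
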