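import Fermat.Agent.FFG.Base
import Fermat.Agent.Flat.LemA4

/-!
# Characters of finite flat group schemes, in terms of rings of functions
-/

set_option autoImplicit false
set_option linter.unusedSectionVars false
set_option linter.style.haveILetI false

noncomputable section

open scoped TensorProduct

namespace Fermat.Agent.MzC

open Fermat.Agent.Flat Fermat.Agent.Places Fermat.Agent.RedMod Fermat.Agent.FFG

local notation "Ω" => AlgebraicClosure ℚ

variable {A : ValuationSubring (AlgebraicClosure ℚ)} {p : ℕ} [Fact p.Prime]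

section act

variable {V : Type} {act : (Ω ≃ₐ[R0 A] Ω) → V → V} {H : Subalgebra (R0 A) (V → Ω)}

theorem act_mul (hH : IsFn act H) (σ τ : Ω ≃ₐ[R0 A] Ω) (v : V) :
    act (σ * τ) v = act σ (act τ v) :=
  hH.sep _ _ fun x hx => by rw [hH.equiv x hx, hH.equiv x hx, hH.equiv x hx]; rfl

theorem act_one (hH : IsFn act H) (v : V) : act 1 v = v :=
  hH.sep _ _ fun x hx => by rw [hH.equiv x hx]; rfl

theorem act_inv_act (hH : IsFn act H) (σ : Ω ≃ₐ[R0 A] Ω) (v : V) : act σ⁻¹ (act σ v) = v := by
  rw [← act_mul hH, inv_mul_cancel, act_one hH]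

theorem act_act_inv (hH : IsFn act H) (σ : Ω ≃ₐ[R0 A] Ω) (v : V) : act σ (act σ⁻¹ v) = v := by
  rw [← act_mul hH, mul_inv_cancel, act_one hH]

theorem act_add [AddCommGroup V] (hH : IsHopfFn act H) (σ : Ω ≃ₐ[R0 A] Ω) (u v : V) :
    act σ (u + v) = act σ u + act σ v := by
  refine hH.sep _ _ fun x hx => ?_
  rw [hH.equiv x hx]
  have h1 := hH.comul x hx
  have h2 : ∀ f ∈ Submodule.span (R0 A) {f : V × V → Ω | ∃ y ∈ H, ∃ z ∈ H,
      f = fun p => y p.1 * z p.2}, σ (f (u, v)) = f (act σ u, act σ v) := by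
    intro f hf
    induction hf using Submodule.span_induction with
    | mem f hf =>
      obtain ⟨y, hy, z, hz, rfl⟩ := hf
      rw [map_mul, ← hH.equiv y hy, ← hH.equiv z hz]
    | zero => exact map_zero σ
    | add f g _ _ hf hg => rw [Pi.add_apply, map_add, hf, hg]; rfl
    | smul r f _ hf =>
      rw [Pi.smul_apply, Pi.smul_apply, Algebra.smul_def, map_mul, hf, Algebra.smul_def]
      congr 1
      exact σ.commutes r
  exact h2 _ h1

end act

/-- a basis of the ring of functions -/
structure BasisD {V : Type} [AddCommGroup V] (act : (Ω ≃ₐ[R0 A] Ω) → V → V)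
    (H : Subalgebra (R0 A) (V → Ω)) (n : ℕ) (b : Fin n → V → Ω) : Prop where
  mem : ∀ i, b i ∈ H
  exp : ∀ x ∈ H, ∃ c : Fin n → R0 A, ∀ u, x u = ∑ i, (c i : Ω) * b i u
  li : LinearIndependent Ω b
  span : ⊤ ≤ Submodule.span Ω (Set.range b)

variable {V : Type} [AddCommGroup V] [Finite V] {act : (Ω ≃ₐ[R0 A] Ω) → V → V}
  {H : Subalgebra (R0 A) (V → Ω)}

theorem exists_basisD (hA : A.LiesOverPrime p) (hH : IsHopfFn act H) :
    ∃ (n : ℕ) (b : Fin n → V → Ω), BasisD act H n b := by
  classical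
  haveI := isPrincipalIdealRing_R0 hA
  haveI := Fintype.ofFinite V
  obtain ⟨ι, _, b', hb'⟩ := hH.toIsFn.oInj
  let b := b'.reindex (Fintype.equivFin ι)
  have hb : LinearIndependent Ω fun i => ((b i : H) : V → Ω) := by
    have := hb'.comp (Fintype.equivFin ι).symm (Fintype.equivFin ι).symm.injective
    convert this using 1
    funext i
    simp only [b, Module.Basis.reindex_apply, Function.comp]
    rfl
  have hexp : ∀ x ∈ H, ∃ c : Fin (Fintype.card ι) → R0 A, ∀ u, x u = ∑ i, (c i : Ω) * (b i : V → Ω) u := by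
    intro x hx
    refine ⟨fun i => b.repr ⟨x, hx⟩ i, fun u => ?_⟩
    have h1 := congrArg (fun y : H => (y : V → Ω) u) (b.sum_repr ⟨x, hx⟩)
    simp only [AddSubmonoidClass.coe_finsetSum, Finset.sum_apply] at h1
    exact h1.symm
  refine ⟨Fintype.card ι, fun i => (b i : V → Ω), fun i => (b i).2, hexp, hb, ?_⟩
  rw [← hH.span_eq_top, Submodule.span_le]
  intro x hx
  obtain ⟨c, hc⟩ := hexp x hx
  have h1 : x = ∑ i, (c i : Ω) • (b i : V → Ω) := by
    funext u
    rw [hc, Finset.sum_apply]
    rfl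
  rw [h1]
  exact Submodule.sum_mem _ fun i _ => Submodule.smul_mem _ _ (Submodule.subset_span ⟨i, rfl⟩)

namespace BasisD

variable {n : ℕ} {b : Fin n → V → Ω} (hb : BasisD act H n b) (hH : IsHopfFn act H)

include hb in
theorem hmul (i j : Fin n) : ∃ c : Fin n → R0 A, ∀ u, b i u * b j u = ∑ k, (c k : Ω) * b k u :=
  hb.exp _ (H.mul_mem (hb.mem i) (hb.mem j))

include hb hH in
theorem comul (i : Fin n) : ∃ D : Fin n → Fin n → R0 A, ∀ u v,
    b i (u + v) = ∑ j, ∑ k, (D j k : Ω) * (b j u * b k v) := by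
  have h1 := hH.comul _ (hb.mem i)
  have h2 : ∀ f ∈ Submodule.span (R0 A) {f : V × V → Ω | ∃ y ∈ H, ∃ z ∈ H,
      f = fun p => y p.1 * z p.2}, ∃ D : Fin n → Fin n → R0 A, ∀ u v,
      f (u, v) = ∑ j, ∑ k, (D j k : Ω) * (b j u * b k v) := by
    intro f hf
    induction hf using Submodule.span_induction with
    | mem f hf =>
      obtain ⟨y, hy, z, hz, rfl⟩ := hf
      obtain ⟨c, hc⟩ := hb.exp y hy
      obtain ⟨d, hd⟩ := hb.exp z hz
      refine ⟨fun j k => c j * d k, fun u v => ?_⟩
      beta_reduce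
      rw [hc, hd, Finset.sum_mul_sum]
      refine Finset.sum_congr rfl fun j _ => Finset.sum_congr rfl fun k _ => ?_
      push_cast
      ring
    | zero => exact ⟨0, fun u v => by simp⟩
    | add f g _ _ hf hg =>
      obtain ⟨D, hD⟩ := hf
      obtain ⟨D', hD'⟩ := hg
      refine ⟨D + D', fun u v => ?_⟩
      rw [Pi.add_apply, hD, hD', ← Finset.sum_add_distrib]
      refine Finset.sum_congr rfl fun j _ => ?_
      rw [← Finset.sum_add_distrib]
      refine Finset.sum_congr rfl fun k _ => ?_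
      simp only [Pi.add_apply]
      push_cast
      ring
    | smul r f _ hf =>
      obtain ⟨D, hD⟩ := hf
      refine ⟨fun j k => r * D j k, fun u v => ?_⟩
      rw [Pi.smul_apply, hD, Algebra.smul_def, Finset.mul_sum]
      refine Finset.sum_congr rfl fun j _ => ?_
      rw [Finset.mul_sum]
      refine Finset.sum_congr rfl fun k _ => ?_
      push_cast
      change (r : Ω) * _ = _
      ring
  exact h2 _ h1

include hb in
theorem coeff {c d : Fin n → Ω} (h : ∀ u, ∑ i, c i * b i u = ∑ i, d i * b i u) (i : Fin n) :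
    c i = d i := li_coeff hb.li h i

include hb hH in
/-- **characters are integral** -/
theorem char_int {g : V → Ω} (hg : ∀ u v, g (u + v) = g u * g v) (hg0 : g 0 = 1) :
    g ∈ Bs b (A : Set Ω) := by
  obtain ⟨γ, hγ⟩ : ∃ γ : Fin n → Ω, ∀ u, g u = ∑ i, γ i * b i u := by
    obtain ⟨c, hc⟩ := (Submodule.mem_span_range_iff_exists_fun Ω).1
      (hb.span (Submodule.mem_top (x := g)))
    refine ⟨c, fun u => ?_⟩
    rw [← hc, Finset.sum_apply]
    rfl
  refine ⟨γ, fun j => ?_, hγ⟩
  apply mem_of_isIntegral_R0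
  refine isIntegral_of_smul_mem_submodule (Submodule.span (R0 A) (Set.range γ)) ?_
    (Submodule.fg_span (Set.finite_range γ)) (γ j) ?_
  · intro h0
    have h1 : ∀ i, γ i = 0 := fun i => by
      have : γ i ∈ Submodule.span (R0 A) (Set.range γ) := Submodule.subset_span ⟨i, rfl⟩
      rw [h0] at this
      exact (Submodule.mem_bot _).1 this
    have h2 := hγ 0
    simp only [h1, zero_mul, Finset.sum_const_zero] at h2
    rw [hg0] at h2
    exact one_ne_zero h2
  · choose D hD using hb.comul hH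
    have h3 : ∀ j k, γ j * γ k = ∑ i, γ i * (D i j k : Ω) := by
      intro j k
      refine li_coeff2 hb.li (c := fun j k => γ j * γ k) (d := fun j k => ∑ i, γ i * (D i j k : Ω))
        (fun u v => ?_) j k
      have h4 : g (u + v) = ∑ j, ∑ k, (∑ i, γ i * (D i j k : Ω)) * (b j u * b k v) := by
        rw [hγ]
        have h5 : ∀ i, γ i * b i (u + v) =
            ∑ j, ∑ k, γ i * (D i j k : Ω) * (b j u * b k v) := by
          intro i
          rw [hD, Finset.mul_sum]
          refine Finset.sum_congr rfl fun j _ => ?_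
          rw [Finset.mul_sum]
          refine Finset.sum_congr rfl fun k _ => ?_
          ring
        rw [Finset.sum_congr rfl fun i _ => h5 i, Finset.sum_comm]
        refine Finset.sum_congr rfl fun j _ => ?_
        rw [Finset.sum_comm]
        refine Finset.sum_congr rfl fun k _ => ?_
        rw [Finset.sum_mul]
      rw [← h4, hg, hγ, hγ, Finset.sum_mul_sum]
      refine Finset.sum_congr rfl fun j _ => Finset.sum_congr rfl fun k _ => ?_
      ring
    intro y hy
    induction hy using Submodule.span_induction with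
    | mem x hx =>
      obtain ⟨k, rfl⟩ := hx
      rw [smul_eq_mul, h3]
      refine Submodule.sum_mem _ fun i _ => ?_
      have : γ i * (D i j k : Ω) = (D i j k) • γ i := by
        rw [mul_comm]; rfl
      rw [this]
      exact Submodule.smul_mem _ _ (Submodule.subset_span ⟨i, rfl⟩)
    | zero => rw [smul_zero]; exact Submodule.zero_mem _
    | add x y _ _ hx hy => rw [smul_add]; exact Submodule.add_mem _ hx hy
    | smul r x _ hx =>
      have : γ j • r • x = r • γ j • x := smul_comm _ _ _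
      rw [this]
      exact Submodule.smul_mem _ _ hx

include hb in
theorem mulN {f h : V → Ω} (hf : f ∈ Bs b (A : Set Ω)) (hh : h ∈ Bs b (A.nonunits : Set Ω)) :
    f * h ∈ Bs b (A.nonunits : Set Ω) :=
  Bs_mul hb.hmul (fun s f h => sum_mem_nonunits s f h) (fun _ hx _ ha => mul_mem_nonunits A hx ha)
    hf hh

include hb hH in
theorem conj_coeff {g : V → Ω} {γ : Fin n → Ω} (hγ : ∀ u, g u = ∑ i, γ i * b i u)
    (σ : Ω ≃ₐ[R0 A] Ω) (u : V) : σ (g (act σ⁻¹ u)) = ∑ i, σ (γ i) * b i u := by
  rw [hγ, map_sum]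
  refine Finset.sum_congr rfl fun i _ => ?_
  rw [map_mul, ← hH.equiv _ (hb.mem i), act_act_inv hH.toIsFn]

include hb hH in
/-- the automorphisms act trivially modulo the maximal ideal -/
theorem conj_sub_mem {g : V → Ω} (hg : g ∈ Bs b (A : Set Ω)) (σ : Ω ≃ₐ[R0 A] Ω) :
    (fun u => σ (g (act σ⁻¹ u))) - g ∈ Bs b (A.nonunits : Set Ω) := by
  obtain ⟨γ, hγA, hγ⟩ := hg
  refine ⟨fun i => σ (γ i) - γ i, fun i => ?_, fun u => ?_⟩
  · exact (mem_inertia_iff A _).1 (rq_mem σ) _ (hγA i)
  · rw [Pi.sub_apply, hb.conj_coeff hH hγ]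
    simp only [sub_mul, Finset.sum_sub_distrib]
    rw [hγ]

end BasisD

end Fermat.Agent.MzC
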