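import Fermat.Agent.MzC.FamE

/-!
# Translations by elements of the kernel of reduction are trivial on the special fibre
-/

set_option autoImplicit false
set_option linter.unusedSectionVars false
set_option linter.style.haveILetI false

noncomputable section

namespace Fermat.Agent.MzC

open AlgebraicCurve Fermat.Agent.RR Fermat.Agent.Curve Fermat.Agent.Red Fermat.Agent.Spec Module
open Fermat.Agent.FFG

variable {A K F k R : Type*} [CommRing A] [IsDomain A] [ValuationRing A]
  [Field K] [Algebra A K] [IsFractionRing A K] [Field F] [Algebra K F] [Algebra A F]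
  [IsScalarTower A K F] [Field k] [Algebra A k] [Field R] [Algebra k R] [Algebra A R]
  [IsScalarTower A k R]
  [IsAlgClosed K] [IsAlgClosed k] [FunField K F] [FunField k R]
  {M : RedModel A K F k R} {hk : Function.Surjective (algebraMap A k)}
  (𝓓 : DivRed A K F k R M hk) {v : Place K F} {w : Place k R}
  (hv : 𝓓.r (Finsupp.single v 1) = Finsupp.single w 1)
  {Γ V : Type*} [AddCommGroup V] [Finite V] {ρ : Γ → SemilinearAut K F} {act : Γ → V → V}
  {φ : V →+ Pic0 K F} (X : Fam 𝓓 v w ρ act φ) (hXn : X.n = rrGenus k R)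

include hv hXn in
/-- non special divisors have the full reduction -/
theorem rd_eq_of (P Q : V) (Z : Divisor K F) (m : ℤ) (u : F) (hu0 : u ≠ 0)
    (hu : divisor K u = X.E P + X.E Q + Z - Finsupp.single v m) :
    M.rd hk (riemannRochSpace (Finsupp.single v m - Z)) =
      riemannRochSpace (Finsupp.single w m - 𝓓.r Z) := by
  have hr : 𝓓.r (Finsupp.single v m - Z) = Finsupp.single w m - 𝓓.r Z := by
    rw [map_sub, r_single_n 𝓓 hv]
  have hle := 𝓓.rd_le (Finsupp.single v m - Z)
  rw [hr] at hle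
  refine Submodule.eq_of_le_of_finrank_le hle ?_
  rw [M.finrank_rd hk]
  have h1 : (ell (Finsupp.single w m - 𝓓.r Z) : ℤ) ≤ 1 + rrGenus k R := by
    have h2 : ell (Finsupp.single w m - 𝓓.r Z) = ell (𝓓.r (X.E P) + 𝓓.r (X.E Q)) := by
      symm
      apply ell_eq_of_sub_mem
      have h3 : 𝓓.r (X.E P) + 𝓓.r (X.E Q) - (Finsupp.single w m - 𝓓.r Z) =
          𝓓.r (divisor K u) := by
        rw [hu, map_sub, map_add, map_add, r_single_n 𝓓 hv]; abel
      rw [h3]
      exact 𝓓.r_isPrincipal (isPrincipal_divisor hu0)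
    rw [h2]
    have h3 := ell_le_of_le (le_add_of_nonneg_right (𝓓.r_nonneg (X.comp Q).nonneg) :
      𝓓.r (X.E P) ≤ 𝓓.r (X.E P) + 𝓓.r (X.E Q))
    rw [map_add, 𝓓.degree_r, 𝓓.degree_r, (X.comp P).deg, (X.comp Q).deg, Fintype.card_fin,
      hXn] at h3
    have h4 := X.ell_le P
    omega
  have h2 : (1 : ℤ) + rrGenus k R ≤ ell (Finsupp.single v m - Z) := by
    have h3 := riemann (Finsupp.single v m - Z)
    have h4 := congrArg Divisor.degree hu
    rw [degree_divisor, map_sub, map_add, map_add, (X.comp P).deg, (X.comp Q).deg,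
      Fintype.card_fin, hXn, degree_single'] at h4
    rw [map_sub, degree_single'] at h3
    have h5 : (rrGenus K F : ℤ) = rrGenus k R := 𝓓.genus_eq
    omega
  have h3 : finrank K (riemannRochSpace (Finsupp.single v m - Z)) =
    ell (Finsupp.single v m - Z) := rfl
  have h4 : finrank k (riemannRochSpace (Finsupp.single w m - 𝓓.r Z)) =
    ell (Finsupp.single w m - 𝓓.r Z) := rfl
  rw [h3, h4]
  omega

variable (hrefl : ∀ (T : V) (c : ℤ), ∃ (Z : Divisor K F) (m : ℤ), 0 ≤ Z ∧ 𝓓.r Z w = 0 ∧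
        (∀ P u, 𝓓.r Z u = 0 ∨ 𝓓.r (X.E P) u = 0) ∧ c ≤ Divisor.degree Z ∧
        ∀ P, ∃ u : F, u ≠ 0 ∧ divisor K u = X.E P + X.E (T - P) + Z - Finsupp.single v m)

include hrefl in
/-- two residual divisors with the same reduction -/
theorem exists_pair_Z {T : V} (hT : 𝓓.sp (φ T) = 0) :
    ∃ (Z : Bool → Divisor K F) (Zk : Divisor k R) (m : ℤ), (∀ b, 0 ≤ Z b) ∧
      (∀ b, 𝓓.r (Z b) = Zk) ∧ Zk w = 0 ∧ (∀ P u, Zk u = 0 ∨ 𝓓.r (X.E P) u = 0) ∧
      ∀ b P, ∃ u : F, u ≠ 0 ∧
        divisor K u = X.E P + X.E ((if b then T else 0) - P) + Z b - Finsupp.single v m := by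
  classical
  obtain ⟨c, hc⟩ := 𝓓.rd_eq
  obtain ⟨Z0, m, hZ0, hZ0w, hdisj, hdeg, hu⟩ := hrefl 0 c
  obtain ⟨D, hD, hDC⟩ := X.cls T
  rw [← hD, 𝓓.sp_mk_eq_zero] at hT
  obtain ⟨fk, hfk0, hfk⟩ := isPrincipal_iff.1 hT
  have hfkL : fk ∈ riemannRochSpace (𝓓.r (Z0 - (D : Divisor K F))) := by
    rw [mem_L_of_divisor hfk0, ← hfk, map_sub]
    have : 𝓓.r Z0 - 𝓓.r (D : Divisor K F) + 𝓓.r (D : Divisor K F) = 𝓓.r Z0 := by abel
    rw [this]
    exact 𝓓.r_nonneg hZ0
  rw [← hc (Z0 - (D : Divisor K F)) (by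
    rw [map_sub, Divisor.mem_degZero.1 D.2, sub_zero]; exact hdeg)] at hfkL
  obtain ⟨f, hf, hfπ⟩ := hfkL
  have hπ0 : M.π ⟨f, hf.1⟩ ≠ 0 := by rw [hfπ]; exact hfk0
  have hf0 : f ≠ 0 := by
    rintro rfl
    apply hπ0
    have : (⟨0, hf.1⟩ : M.W) = 0 := rfl
    rw [this, map_zero]
  let Z1 : Divisor K F := Z0 - (D : Divisor K F) + divisor K f
  have hZ1 : 0 ≤ Z1 := (mem_L_of_divisor hf0).1 hf.2
  have hrZ1 : 𝓓.r Z1 = 𝓓.r Z0 := by
    change 𝓓.r (Z0 - (D : Divisor K F) + divisor K f) = _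
    rw [map_add, 𝓓.r_divisor hf.1 hπ0, hfπ, map_sub, hfk]
    abel
  refine ⟨fun b => if b then Z1 else Z0, 𝓓.r Z0, m, ?_, ?_, hZ0w, hdisj, ?_⟩
  · rintro (_ | _)
    · exact hZ0
    · exact hZ1
  · rintro (_ | _)
    · rfl
    · exact hrZ1
  · rintro (_ | _) P
    · exact hu P
    · change ∃ u : F, u ≠ 0 ∧ divisor K u = X.E P + X.E (T - P) + Z1 - Finsupp.single v m
      obtain ⟨u, hu0, hu1⟩ := hu P
      obtain ⟨D1, hD1, hDC1⟩ := X.cls (T - P)
      obtain ⟨D2, hD2, hDC2⟩ := X.cls (0 - P)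
      have h1 : (D1 : Divisor K F) - D2 - D ∈ Divisor.principal (K := K) (F := F) := by
        have h2 : Pic0.mk (D1 - D2 - D) = 0 := by
          have h3 : Pic0.mk (D1 - D2 - D) = Pic0.mk D1 - Pic0.mk D2 - Pic0.mk D := rfl
          rw [h3, hD, hD1, hD2, ← map_sub, ← map_sub]
          have : T - P - (0 - P) - T = 0 := by abel
          rw [this, map_zero]
        have h3 := pic0_mk_eq_zero.1 h2
        rw [AddSubgroup.coe_sub, AddSubgroup.coe_sub] at h3
        exact h3
      have h2 : X.E P + X.E (T - P) + Z1 - Finsupp.single v m ∈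
          Divisor.principal (K := K) (F := F) := by
        have h3 : X.E P + X.E (T - P) + Z1 - Finsupp.single v m =
            divisor K u + (X.E (T - P) - X.C - (D1 : Divisor K F)) -
            (X.E (0 - P) - X.C - (D2 : Divisor K F)) + ((D1 : Divisor K F) - D2 - D) +
            divisor K f := by
          rw [hu1]
          change X.E P + X.E (T - P) + (Z0 - (D : Divisor K F) + divisor K f) -
            Finsupp.single v m = _
          abel
        rw [h3]
        exact add_mem (add_mem (sub_mem (add_mem (divisor_mem_principal hu0) hDC1) hDC2) h1)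
          (divisor_mem_principal hf0)
      obtain ⟨u', hu'0, hu'⟩ := mem_principal_iff.1 h2
      exact ⟨u', hu'0, hu'.symm⟩

include hv hXn hrefl in
/-- the reflections with respect to `T` and `0` agree modulo the maximal ideal -/
theorem refl_pair {T : V} (hT : 𝓓.sp (φ T) = 0) {h : V → A} (hh : h ∈ coordRing v X.E X.ws) :
    (fun q : V × Bool => h ((if q.2 then T else 0) - q.1)) ∈ pairH k (coordRing v X.E X.ws) := by
  classical
  haveI := Fintype.ofFinite V
  obtain ⟨Z, Zk, m, hZ, hZr, hZw, hdisj, hu⟩ := exists_pair_Z 𝓓 X hrefl hT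
  choose u hu0 hu using hu
  obtain ⟨d, e, he1, he2, he3, heπ⟩ := exists_pair_basis (M := M) (hk := hk)
    (fun b => riemannRochSpace (Finsupp.single v m - Z b)) (by
      rw [rd_eq_of 𝓓 hv X hXn 0 _ (Z true) m _ (hu0 true 0) (hu true 0),
        rd_eq_of 𝓓 hv X hXn 0 _ (Z false) m _ (hu0 false 0) (hu false 0), hZr, hZr])
  have hcomp' : ∀ q : V × Bool, Comp 𝓓 v w (X.E q.1) X.ws := fun q => X.comp q.1
  have hEw' : ∀ q : V × Bool, 𝓓.r (X.E q.1) w = 0 := fun q => X.Ew q.1
  have hell' : ∀ q : V × Bool, ell (𝓓.r (X.E q.1)) ≤ 1 := fun q => X.ell_le q.1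
  have hdisj' : ∀ (q : V × Bool) u, Zk u = 0 ∨ 𝓓.r (X.E q.1) u = 0 := fun q => hdisj q.1
  have h𝓗 : coordRing v (fun q : V × Bool => X.E q.1) X.ws ≤
      pairH k (coordRing v X.E X.ws) := by
    refine Algebra.adjoin_le ?_
    rintro _ ⟨b, hb, c, hc, j, rfl⟩
    have h1 : ∀ P, c (P, true) = c (P, false) := fun P =>
      (X.comp P).unique' hv (hc (P, true)) (hc (P, false))
    refine ⟨coord_mem hb (fun P => hc (P, false)) j, ?_⟩
    have h2 : (fun P : V => (fun P => c P j) (P, true) - (fun P => c P j) (P, false)) = 0 := by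
      funext P
      change c (P, true) j - c (P, false) j = 0
      rw [h1, sub_self]
    rw [h2]
    exact zero_mem _
  have hLle : ∀ b, riemannRochSpace (Finsupp.single v m - Z b) ≤
      riemannRochSpace (Finsupp.single v m) := fun b => L_mono (sub_le_self _ (hZ b))
  obtain ⟨u', hu'fam, hu'⟩ := exists_u' 𝓓 hv hcomp' hEw' hell'
    (fun q : V × Bool => ((if q.2 then T else 0) - q.1, q.2)) (fun q => Z q.2) Zk m
    (fun q => hZ q.2) (fun q => hZr q.2) hZw hdisj' h𝓗 (fun i q => e i q.2)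
    (fun i q => he1 i q.2) (fun q => he2 q.2) (fun q => he3 q.2)
    (fun i => fam_pair (L := coordRing v X.E X.ws) (fun b => e i b)
      (fun b => hLle b (he1 i b)) (heπ i))
    (fun q => u q.2 q.1) (fun q => hu0 q.2 q.1) (fun q => hu q.2 q.1)
  -- the functions `y`
  let S : Finset (Place k R) := Finset.univ.biUnion fun P => (𝓓.r (X.E P)).support
  have hS : ∀ p ∈ S, p ≠ w := by
    rintro p hp rfl
    obtain ⟨P, -, hP⟩ := Finset.mem_biUnion.1 hp
    exact (Finsupp.mem_support_iff.1 hP) (X.Ew P)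
  have hS' : ∀ P p, 𝓓.r (X.E P) p ≠ 0 → p ∈ S := fun P p h =>
    Finset.mem_biUnion.2 ⟨P, Finset.mem_univ _, Finsupp.mem_support_iff.2 h⟩
  have hZZr : 𝓓.r (Z true + Z false) = Zk + Zk := by rw [map_add, hZr, hZr]
  obtain ⟨N, y, hyfam, hy⟩ := exists_y 𝓓 hv X.comp X.Ew (Z true + Z false)
    (add_nonneg (hZ _) (hZ _)) (by rw [hZZr, Finsupp.add_apply, hZw, add_zero]) (fun P u => by
      rw [hZZr, Finsupp.add_apply]
      rcases hdisj P u with h1 | h1
      · left; rw [h1, add_zero]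
      · exact Or.inr h1) S hS hS'
  have hEv : ∀ P, X.E P v = 0 := fun P => apply_eq_zero_of_r 𝓓 hv (X.comp P).nonneg (X.Ew P)
  have hyL : ∀ P, y P ∈ riemannRochSpace (Finsupp.single v N - (Z true + Z false)) := by
    intro P
    obtain ⟨X', -, hX'⟩ := fam_repr (Module.Free.chooseBasis A
      (M.lat (riemannRochSpace (Finsupp.single v N - (Z true + Z false))))) hyfam
    rw [hX' P]
    exact Submodule.sum_mem _ fun a _ => Submodule.smul_mem _ _
      ((Module.Free.chooseBasis A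
        (M.lat (riemannRochSpace (Finsupp.single v N - (Z true + Z false))))) a).2.2
  have hZle : ∀ b, Z b ≤ Z true + Z false := by
    rintro (_ | _)
    · exact le_add_of_nonneg_left (hZ _)
    · exact le_add_of_nonneg_right (hZ _)
  have hyZ : ∀ b P, y P ∈ II v (Z b + X.E P) := by
    intro b P p hp
    rw [Finsupp.add_apply]
    have h1 : Ge p (Z b p) (y P) := (L_le_II N (hyL P) p hp).mono (hZle b p)
    have h2 : Ge p (X.E P p) (y P) := (hy P).1 p hp
    by_cases h3 : Z b p = 0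
    · rw [h3, zero_add]; exact h2
    · by_cases h4 : X.E P p = 0
      · rw [h4, add_zero]; exact h1
      · exfalso
        obtain ⟨q, hq⟩ := 𝓓.r_single p
        have h5 : ∀ D : Divisor K F, 0 ≤ D → D p ≠ 0 → 𝓓.r D q ≠ 0 := by
          intro D hD hDp h6
          exact hDp (apply_eq_zero_of_r 𝓓 hq hD h6)
        rcases hdisj P q with h6 | h6
        · exact h5 (Z b) (hZ b) h3 (by rw [hZr]; exact h6)
        · exact h5 (X.E P) (X.comp P).nonneg h4 h6
  have hyfam' : (fun q : V × Bool => y q.1) ∈ famSpan M (pairH k (coordRing v X.E X.ws))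
      (riemannRochSpace (Finsupp.single v N)) :=
    fam_const_pair (fam_mono (L_mono (sub_le_self _ (add_nonneg (hZ _) (hZ _)))) hyfam)
  induction hh using Algebra.adjoin_induction with
  | mem x hx =>
    obtain ⟨b, hb, c, hc, j, rfl⟩ := hx
    exact reflect_coord' 𝓓 hv hcomp' hEw'
      (fun q : V × Bool => ((if q.2 then T else 0) - q.1, q.2)) (fun q => Z q.2) Zk m
      (fun q => hZ q.2) (fun q => hZr q.2) hZw hdisj' h𝓗 u' hu'fam hu' (N := N)
      (fun q => y q.1) hyfam' (fun q => hyZ q.2 q.1) (fun q => by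
        obtain ⟨y', hy'F, hy'⟩ := (hy q.1).2
        refine ⟨y', hy'F, fun p hp => ?_⟩
        obtain ⟨h1, h2⟩ := hy' p (hS' _ p hp)
        refine ⟨h1, h2.trans ?_⟩
        have h3 := (hdisj _ p).resolve_right hp
        rw [hZZr, Finsupp.add_apply, h3, add_zero]) (β := b) hb (c := fun q => c q.1)
      (fun q => hc q.1) j
  | algebraMap r => exact (pairH k (coordRing v X.E X.ws)).algebraMap_mem r
  | add x y _ _ hx hy => exact add_mem hx hy
  | mul x y _ _ hx hy => exact mul_mem hx hy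

include hv hXn hrefl in
/-- **Translations by elements of the kernel of reduction are trivial modulo the maximal
ideal.** -/
theorem trans_sub_mem {T : V} (hT : 𝓓.sp (φ T) = 0) {h : V → A}
    (hh : h ∈ coordRing v X.E X.ws) :
    (fun P => h (P + T) - h P) ∈ nn k (coordRing v X.E X.ws) := by
  have h1 := (refl_pair 𝓓 hv X hXn hrefl hT hh).2
  have h0 : ∀ g ∈ coordRing v X.E X.ws, (fun P => g (0 - P)) ∈ coordRing v X.E X.ws :=
    fun g hg => (refl_pair 𝓓 hv X hXn hrefl hT hg).1
  have h2 := comp_mem_nn h0 h1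
  have h3 : (fun P => h (P + T) - h P) = fun P =>
      (fun P => (fun q : V × Bool => h ((if q.2 then T else 0) - q.1)) (P, true) -
        (fun q : V × Bool => h ((if q.2 then T else 0) - q.1)) (P, false)) (0 - P) := by
    funext P
    simp only [if_true, Bool.false_eq_true, if_false]
    congr 2 <;> abel
  rw [h3]
  exact h2

end Fermat.Agent.MzC
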