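import Fermat.Agent.MazD.Core
import Fermat.Agent.MzC.Main

/-!
# The specialization map, in the form used by the Eisenstein descent
-/

set_option autoImplicit false
set_option linter.unusedSectionVars false
set_option linter.style.haveILetI false

noncomputable section

namespace Fermat.Agent.MzC

open AlgebraicCurve ModularCurve Fermat.Agent.FFG Fermat.Agent.Flat Fermat.Agent.Places
open Fermat.Agent.RedMod Fermat.Agent.GalRep

local notation "Ω" => AlgebraicClosure ℚ

/-- change of the integer representing the cyclotomic character -/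
theorem pow_eq_zero_of_dvd {W : Type*} [AddCommGroup W] {p k m : ℕ}
    (hk : ∀ w : W, p ^ k • w = 0) (a : AddMonoid.End W) {c v : ℕ}
    (hcv : (p : ℤ) ∣ (c : ℤ) - v) (h : (a - (v : AddMonoid.End W)) ^ m = 0) :
    (a - (c : AddMonoid.End W)) ^ (m + k) = 0 := by
  obtain ⟨z, hz⟩ := hcv
  have h1 : a - (c : AddMonoid.End W) = (a - (v : AddMonoid.End W)) +
      (-(((p : ℤ) * z : ℤ) : AddMonoid.End W)) := by
    rw [← hz]; push_cast; abel
  have hcomm : Commute (a - (v : AddMonoid.End W)) (-(((p : ℤ) * z : ℤ) : AddMonoid.End W)) :=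
    (Int.commute_cast _ _).neg_right
  have hpz : (-(((p : ℤ) * z : ℤ) : AddMonoid.End W)) ^ k = 0 := by
    have h3 : ((p ^ k : ℕ) : AddMonoid.End W) = 0 := by
      ext w
      rw [AddMonoid.End.natCast_apply, hk]
      rfl
    have h4 : (-(((p : ℤ) * z : ℤ) : AddMonoid.End W)) ^ k =
        ((p ^ k : ℕ) : AddMonoid.End W) * (((-z) ^ k : ℤ) : AddMonoid.End W) := by
      have : (-(((p : ℤ) * z : ℤ) : AddMonoid.End W)) = (((p : ℤ) * (-z) : ℤ) : AddMonoid.End W) := by
        rw [mul_neg, Int.cast_neg]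
      rw [this, ← Int.cast_pow, mul_pow, Int.cast_mul]
      push_cast
      rfl
    rw [h4, h3, zero_mul]
  rw [h1]
  refine hcomm.add_pow_eq_zero_of_add_le_succ_of_pow_eq_zero h hpz (by omega)

/-- **The specialization map.** -/
theorem exists_isSpD (r N : ℕ) [hr : Fact r.Prime] [NeZero N]
    {A : ValuationSubring (AlgebraicClosure ℚ)} (hA : A.LiesOverPrime r) (hrN : ¬ r ∣ N) :
    ∃ (P₀ : Type) (_ : AddCommGroup P₀) (f : JZero N →+ P₀) (Φ Φi : P₀ →+ P₀),
      MazD.IsSp r N A f Φ Φi := by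
  obtain ⟨P, i, f, Φ, Φi, hf⟩ := exists_isSp (ℓ := r) (N := N) hA hrN
  refine ⟨P, i, f, Φ, Φi, hf.surj, hf.inv, hf.hecke, hf.es, hf.inertia, hf.frob, ?_, ?_⟩
  · intro hr2 V _ _ act φ hφ hφeq k hk h0 ψ hψ
    ext T
    exact psi_eq_zero_J (ι := Unit) (act := act) hA hr2 hf.conn
      (φ := { toFun := fun v _ => φ v, map_zero' := by simp; rfl, map_add' := by intro a b; simp; rfl })
      (fun a b hab => hφ (congrFun hab ())) (fun σ _ w _ => hφeq σ w) ψ hψ (T := T)
      (fun _ => h0 T)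
  · intro V _ _ ρ φ hφ hφeq k hk h0 hnil σ hσ v
    rcases Nat.eq_zero_or_pos k with rfl | hk0
    · have h1 : ∀ w : V, w = 0 := fun w => by simpa using hk w
      rw [h1 (ρ σ v), h1 (_ • v)]
    refine act_eq_nsmul_J (ι := Unit) (act := fun σ v => ρ σ v) hA hf.conn
      (φ := { toFun := fun v _ => φ v, map_zero' := by simp; rfl, map_add' := by intro a b; simp; rfl })
      (fun a b hab => hφ (congrFun hab ())) (fun σ _ w _ => hφeq σ w) (fun w _ => h0 w) hk ?_ hσ
      (c := (cyc (r ^ k) σ).val) (fun ζ hζ => apply_eq_pow_cyc (r ^ k) σ hζ) v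
    intro τ hτ c hc
    obtain ⟨m, hm⟩ := hnil τ hτ
    have h2 : cyc r τ = c := cyc_eq_of_forall r τ c fun x hx => hc x (by
      obtain ⟨k', rfl⟩ : ∃ k', k = k' + 1 := ⟨k - 1, by omega⟩
      rw [pow_succ', pow_mul, hx, one_pow])
    have h3 : (r : ℤ) ∣ (c : ℤ) - ((cyc r τ).val : ℕ) := by
      rw [← ZMod.intCast_zmod_eq_zero_iff_dvd ((c : ℤ) - ((cyc r τ).val : ℕ)) r]
      push_cast
      rw [ZMod.natCast_zmod_val, h2, sub_self]
    obtain ⟨M, hM⟩ := exists_pow_eq hr.out hk (ρ τ) c _ (pow_eq_zero_of_dvd hk (ρ τ) h3 hm)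
    exact ⟨M, fun w => by rw [map_pow]; exact hM w⟩

end Fermat.Agent.MzC
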