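import Fermat.Agent.MzC.Cong
import Fermat.Agent.FFG.Main2

/-!
# Finite flat models in which the kernel of reduction is connected
-/

set_option autoImplicit false
set_option linter.unusedSectionVars false
set_option linter.style.haveILetI false

noncomputable section

open Polynomial

namespace Fermat.Agent.MzC

open AlgebraicCurve Fermat.Agent.RR Fermat.Agent.Curve Fermat.Agent.Red Fermat.Agent.Spec Module
open Fermat.Agent.FFG

section rep

variable {R Ω : Type} [CommRing R] [IsDomain R] [Field Ω] [Algebra R Ω] [FixBase R Ω]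
variable {V : Type} [AddCommGroup V] [Finite V] {act : (Ω ≃ₐ[R] Ω) → V → V}

/-- **Translation invariant lattices give Hopf algebras**, explicit form. -/
theorem isHopfFn_adjoin [IsPrincipalIdealRing R] {𝒪 : Subring Ω} (h𝒪 : IsOver R 𝒪)
    (hadd : ∀ σ P Q, act σ (P + Q) = act σ P + act σ Q)
    {ι : Type} [Fintype ι] (h : ι → V → Ω)
    (heq : ∀ i σ P, h i (act σ P) = σ (h i P)) (hind : LinearIndependent Ω h)
    (hsep : ∀ P Q, (∀ i, h i P = h i Q) → P = Q)
    (m : ι × ι → V → Ω) (hm𝒪 : ∀ q T, m q T ∈ 𝒪)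
    (hm : ∀ T j P, h j (P + T) = ∑ i, m (i, j) T * h i P) :
    IsHopfFn act (Algebra.adjoin R (Set.range m)) := by
  classical
  have hinj : ∀ σ, Function.Injective (act σ) := fun σ P Q hPQ => hsep P Q fun i =>
    σ.injective (by rw [← heq, ← heq, hPQ])
  have hsurj : ∀ σ, Function.Surjective (act σ) := fun σ =>
    Finite.injective_iff_surjective.1 (hinj σ)
  have huniq : ∀ c d : ι → Ω, (∀ P, ∑ i, c i * h i P = ∑ i, d i * h i P) → c = d := by
    intro c d hcd
    have h1 : ∑ i, (c i - d i) • h i = 0 := by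
      funext P
      simp only [Finset.sum_apply, Pi.smul_apply, smul_eq_mul, sub_mul, Finset.sum_sub_distrib,
        Pi.zero_apply]
      rw [hcd P, sub_self]
    funext i
    exact sub_eq_zero.1 (Fintype.linearIndependent_iff.1 hind _ h1 i)
  have hmeq : ∀ q σ T, m q (act σ T) = σ (m q T) := by
    rintro ⟨i, j⟩ σ T
    have h1 := huniq (fun i => m (i, j) (act σ T)) (fun i => σ (m (i, j) T)) (fun P => by
      obtain ⟨S, rfl⟩ := hsurj σ P
      rw [← hm, ← hadd, heq, hm, map_sum]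
      exact Finset.sum_congr rfl fun i _ => by rw [map_mul, heq])
    exact congrFun h1 i
  have hmadd : ∀ i j S T, m (i, j) (S + T) = ∑ k, m (i, k) S * m (k, j) T := by
    intro i j S T
    have h1 := huniq (fun i => m (i, j) (S + T)) (fun i => ∑ k, m (i, k) S * m (k, j) T)
      (fun P => by
        rw [← hm, ← add_assoc, hm T j (P + S)]
        simp only [hm S _ P, Finset.mul_sum, Finset.sum_mul]
        rw [Finset.sum_comm]
        exact Finset.sum_congr rfl fun i _ => Finset.sum_congr rfl fun k _ => by ring)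
    exact congrFun h1 i
  let H : Subalgebra R (V → Ω) := Algebra.adjoin R (Set.range m)
  have hz : ∀ σ, act σ 0 = 0 := fun σ => by
    have := hadd σ 0 0
    rw [add_zero] at this
    exact left_eq_add.1 this
  refine ⟨⟨?_, ?_, ?_⟩, hz, ?_⟩
  · intro x hx P
    induction hx using Algebra.adjoin_induction with
    | mem x hx =>
      obtain ⟨q, rfl⟩ := hx
      exact isIntegral_of_equiv h𝒪 (fun σ => ⟨hinj σ, hsurj σ⟩) (fun T => hm𝒪 q T) (hmeq q) P
    | algebraMap r => exact isIntegral_algebraMap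
    | add x y _ _ hx hy => exact hx.add hy
    | mul x y _ _ hx hy => exact hx.mul hy
  · intro x hx σ P
    induction hx using Algebra.adjoin_induction with
    | mem x hx =>
      obtain ⟨q, rfl⟩ := hx
      exact hmeq q σ P
    | algebraMap r => exact (σ.commutes r).symm
    | add x y _ _ hx hy => rw [Pi.add_apply, Pi.add_apply, map_add, hx, hy]
    | mul x y _ _ hx hy => rw [Pi.mul_apply, Pi.mul_apply, map_mul, hx, hy]
  · intro P Q hPQ
    refine hsep P Q fun j => ?_
    have h1 := hm P j 0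
    have h2 := hm Q j 0
    rw [zero_add] at h1 h2
    rw [h1, h2]
    refine Finset.sum_congr rfl fun i _ => ?_
    rw [hPQ (m (i, j)) (Algebra.subset_adjoin ⟨(i, j), rfl⟩)]
  · have h1 : H ≤ comulSub H := by
      refine Algebra.adjoin_le ?_
      rintro _ ⟨⟨i, j⟩, rfl⟩
      have h2 : (fun p : V × V => m (i, j) (p.1 + p.2)) =
          ∑ k, fun p : V × V => m (i, k) p.1 * m (k, j) p.2 := by
        funext p
        rw [hmadd, Finset.sum_apply]
      change (fun p : V × V => m (i, j) (p.1 + p.2)) ∈ Submodule.span R (prodSet (H : Set (V → Ω)))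
      rw [h2]
      refine Submodule.sum_mem _ fun k _ => Submodule.subset_span ?_
      exact ⟨_, Algebra.subset_adjoin ⟨(i, k), rfl⟩, _, Algebra.subset_adjoin ⟨(k, j), rfl⟩, rfl⟩
    exact h1

end rep

variable {R0 Ω : Type} [CommRing R0] [IsDomain R0] [Field Ω] [Algebra R0 Ω] [FixBase R0 Ω]
  [IsPrincipalIdealRing R0]
variable {A k : Type} {F R : Type*} [CommRing A] [IsDomain A] [ValuationRing A]
  [Algebra A Ω] [IsFractionRing A Ω] [Field F] [Algebra Ω F] [Algebra A F]
  [IsScalarTower A Ω F] [Field k] [Algebra A k] [Field R] [Algebra k R] [Algebra A R]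
  [IsScalarTower A k R]
  [IsAlgClosed Ω] [IsAlgClosed k] [FunField Ω F] [FunField k R]
  {M : RedModel A Ω F k R} {hk : Function.Surjective (algebraMap A k)}
  (𝓓 : DivRed A Ω F k R M hk) {v : Place Ω F} {w : Place k R}
  (hv : 𝓓.r (Finsupp.single v 1) = Finsupp.single w 1)
  {V : Type} [AddCommGroup V] [Finite V] {ρ : (Ω ≃ₐ[R0] Ω) → SemilinearAut Ω F}
  {act : (Ω ≃ₐ[R0] Ω) → V → V}
  {φ : V →+ Pic0 Ω F} (X : Fam 𝓓 v w ρ act φ)
  (H : FixData (M := M) ρ v w)
  (hρ : ∀ γ (a : Ω) (x : F), ρ γ • (a • x) = γ a • ρ γ • x)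
  (hA : ∀ (γ : Ω ≃ₐ[R0] Ω) (a : A), ∃ a' : A, algebraMap A Ω a' = γ (algebraMap A Ω a))
  (hR0 : ∀ r : R0, ∃ a : A, algebraMap A Ω a = algebraMap R0 Ω r)
  (hφ : Function.Injective φ) (hφeq : ∀ γ P, φ (act γ P) = ρ γ • φ P)

variable (A k) in
/-- the image of the maximal ideal -/
def mOm (Ω : Type) [Field Ω] [Algebra A Ω] : Set Ω :=
  {x | ∃ a : A, algebraMap A k a = 0 ∧ algebraMap A Ω a = x}

omit [IsDomain A] [ValuationRing A] [IsFractionRing A Ω] [IsAlgClosed Ω] [IsAlgClosed k] in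
theorem mOm_add {x y : Ω} (hx : x ∈ mOm A k Ω) (hy : y ∈ mOm A k Ω) : x + y ∈ mOm A k Ω := by
  obtain ⟨a, ha, rfl⟩ := hx
  obtain ⟨b, hb, rfl⟩ := hy
  exact ⟨a + b, by rw [map_add, ha, hb, add_zero], map_add _ _ _⟩

omit [IsDomain A] [ValuationRing A] [IsFractionRing A Ω] [IsAlgClosed Ω] [IsAlgClosed k] in
theorem mOm_mul {x y : Ω} (hx : x ∈ mOm A k Ω) (hy : y ∈ (algebraMap A Ω).range) :
    x * y ∈ mOm A k Ω := by
  obtain ⟨a, ha, rfl⟩ := hx
  obtain ⟨b, rfl⟩ := hy
  exact ⟨a * b, by rw [map_mul, ha, zero_mul], map_mul _ _ _⟩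

omit [IsDomain A] [ValuationRing A] [IsFractionRing A Ω] [IsAlgClosed Ω] [IsAlgClosed k] in
theorem mOm_zero : (0 : Ω) ∈ mOm A k Ω := ⟨0, map_zero _, map_zero _⟩

include hv X H hρ hA hR0 hφ hφeq in
/-- **Finite flat models in which the elements of the kernel of reduction are connected to the
origin.** -/
theorem exists_conn_of_fam (hXn : X.n = rrGenus k R)
    (hrefl : ∀ (T : V) (c : ℤ), ∃ (Z : Divisor Ω F) (m : ℤ), 0 ≤ Z ∧ 𝓓.r Z w = 0 ∧
        (∀ P u, 𝓓.r Z u = 0 ∨ 𝓓.r (X.E P) u = 0) ∧ c ≤ Divisor.degree Z ∧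
        ∀ P, ∃ u : F, u ≠ 0 ∧ divisor Ω u = X.E P + X.E (T - P) + Z - Finsupp.single v m)
    (h𝒪 : IsOver R0 (algebraMap A Ω).range) :
    ∃ H : Subalgebra R0 (V → Ω), IsHopfFn act H ∧
      ∀ T, 𝓓.sp (φ T) = 0 → ∀ f ∈ H, f T - f 0 ∈ mOm A k Ω := by
  classical
  have hadd : ∀ σ P Q, act σ (P + Q) = act σ P + act σ Q := fun σ P Q => hφ (by
    rw [hφeq, map_add, map_add, hφeq, hφeq, smul_add])
  have hinj : ∀ σ, Function.Injective (act σ) := fun σ P Q hPQ => hφ (by
    have h1 := hφeq σ P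
    rw [hPQ, hφeq] at h1
    have h2 := congrArg (fun x => (ρ σ)⁻¹ • x) h1
    simp only [inv_smul_smul] at h2
    exact h2.symm)
  have hbij : ∀ σ, Function.Bijective (act σ) := fun σ =>
    ⟨hinj σ, Finite.injective_iff_surjective.1 (hinj σ)⟩
  have hequiv : ∀ x ∈ NN 𝓓 X, ∀ σ P, x (act σ P) = σ (x P) := by
    intro x hx σ P
    induction hx using Algebra.adjoin_induction with
    | mem x hx => exact fixCoord_equiv 𝓓 hv X H hρ hA hx σ P
    | algebraMap r => exact (σ.commutes r).symm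
    | add x y _ _ hx hy => rw [Pi.add_apply, Pi.add_apply, map_add, hx, hy]
    | mul x y _ _ hx hy => rw [Pi.mul_apply, Pi.mul_apply, map_mul, hx, hy]
  have hsep : ∀ P Q : V, (∀ x ∈ NN 𝓓 X, x P = x Q) → P = Q := by
    intro P Q hPQ
    refine X.sep 𝓓 hv hφ (P := P) (Q := Q) fun h hh => ?_
    have h1 := coordRing_span 𝓓 hv X H hh
    have h2 : ∀ f ∈ Submodule.span A (NN 𝓓 X : Set (V → Ω)), f P = f Q := by
      intro f hf
      induction hf using Submodule.span_induction with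
      | mem x hx => exact hPQ x hx
      | zero => rfl
      | add x y _ _ hx hy => rw [Pi.add_apply, Pi.add_apply, hx, hy]
      | smul a x _ hx => rw [Pi.smul_apply, Pi.smul_apply, hx]
    have h3 := h2 _ h1
    exact IsFractionRing.injective A Ω h3
  have hfn : IsFn act (NN 𝓓 X) := by
    refine ⟨fun x hx P => ?_, hequiv, hsep⟩
    refine isIntegral_of_equiv h𝒪 hbij (f := x) (fun P => ?_) (hequiv x hx) P
    obtain ⟨h, -, rfl⟩ := NN_mem 𝓓 X hR0 hx
    exact ⟨h P, rfl⟩
  obtain ⟨ι, _, b, hb⟩ := hfn.oInj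
  have huniq : ∀ c d : ι → Ω, (∀ P, ∑ i, c i * (b i : V → Ω) P = ∑ i, d i * (b i : V → Ω) P) →
      c = d := by
    intro c d hcd
    have h1 : ∑ i, (c i - d i) • (b i : V → Ω) = 0 := by
      funext P
      simp only [Finset.sum_apply, Pi.smul_apply, smul_eq_mul, sub_mul, Finset.sum_sub_distrib,
        Pi.zero_apply]
      rw [hcd P, sub_self]
    funext i
    exact sub_eq_zero.1 (Fintype.linearIndependent_iff.1 hb _ h1 i)
  have hspanb : ∀ f ∈ Submodule.span A (NN 𝓓 X : Set (V → Ω)),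
      ∃ a : ι → Ω, (∀ i, a i ∈ (algebraMap A Ω).range) ∧ ∀ P, f P = ∑ i, a i * (b i : V → Ω) P := by
    intro f hf
    induction hf using Submodule.span_induction with
    | mem x hx =>
      refine ⟨fun i => algebraMap R0 Ω (b.repr ⟨x, hx⟩ i), fun i => ?_, fun P => ?_⟩
      · obtain ⟨a, ha⟩ := hR0 (b.repr ⟨x, hx⟩ i)
        exact ⟨a, ha⟩
      · have h1 := congrArg (fun y : NN 𝓓 X => (y : V → Ω) P) (b.sum_repr ⟨x, hx⟩)
        simp only [AddSubmonoidClass.coe_finsetSum, Finset.sum_apply,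
          Algebra.smul_def] at h1
        exact h1.symm
    | zero => exact ⟨0, fun i => zero_mem _, fun P => by simp⟩
    | add x y _ _ hx hy =>
      obtain ⟨a, ha, ha'⟩ := hx
      obtain ⟨a', hb, hb'⟩ := hy
      refine ⟨a + a', fun i => add_mem (ha i) (hb i), fun P => ?_⟩
      rw [Pi.add_apply, ha', hb', ← Finset.sum_add_distrib]
      exact Finset.sum_congr rfl fun i _ => by rw [Pi.add_apply, add_mul]
    | smul r x _ hx =>
      obtain ⟨a, ha, ha'⟩ := hx
      refine ⟨fun i => algebraMap A Ω r * a i, fun i => mul_mem ⟨r, rfl⟩ (ha i), fun P => ?_⟩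
      rw [Pi.smul_apply, ha', Algebra.smul_def, Finset.mul_sum]
      exact Finset.sum_congr rfl fun i _ => by rw [mul_assoc]
  have hnnb : ∀ y ∈ nn k (coordRing v X.E X.ws), ∃ a : ι → Ω, (∀ i, a i ∈ mOm A k Ω) ∧
      ∀ P, algebraMap A Ω (y P) = ∑ i, a i * (b i : V → Ω) P := by
    intro y hy
    refine nn_induction (p := fun y => ∃ a : ι → Ω, (∀ i, a i ∈ mOm A k Ω) ∧
      ∀ P, algebraMap A Ω (y P) = ∑ i, a i * (b i : V → Ω) P) (fun a ha h hh => ?_)
      (fun x y hx hy => ?_) hy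
    · obtain ⟨c, hc, hc'⟩ := hspanb _ (coordRing_span 𝓓 hv X H hh)
      refine ⟨fun i => algebraMap A Ω a * c i, fun i => mOm_mul ⟨a, ha, rfl⟩ (hc i), fun P => ?_⟩
      rw [Pi.smul_apply, smul_eq_mul, map_mul]
      have h1 := hc' P
      rw [toΩ_apply] at h1
      rw [h1, Finset.mul_sum]
      exact Finset.sum_congr rfl fun i _ => by rw [mul_assoc]
    · obtain ⟨c, hc, hc'⟩ := hx
      obtain ⟨d, hd, hd'⟩ := hy
      refine ⟨c + d, fun i => mOm_add (hc i) (hd i), fun P => ?_⟩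
      rw [Pi.add_apply, map_add, hc', hd', ← Finset.sum_add_distrib]
      exact Finset.sum_congr rfl fun i _ => by rw [Pi.add_apply, add_mul]
  -- the matrix
  have htr : ∀ (T : V) (j : ι), ∃ a : ι → Ω, (∀ i, a i ∈ (algebraMap A Ω).range) ∧
      ∀ P, (b j : V → Ω) (P + T) = ∑ i, a i * (b i : V → Ω) P := by
    intro T j
    obtain ⟨h, hh, hj⟩ := NN_mem 𝓓 X hR0 (b j).2
    have h1 := coordRing_span 𝓓 hv X H (X.trans_mem 𝓓 hv hh T)
    obtain ⟨a, ha, ha'⟩ := hspanb _ h1
    refine ⟨a, ha, fun P => ?_⟩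
    rw [← ha' P, hj]
    rfl
  choose a ha ha' using htr
  have hHopf := isHopfFn_adjoin h𝒪 hadd (fun i => (b i : V → Ω))
    (fun i σ P => hequiv _ (b i).2 σ P) hb (by
      intro P Q hPQ
      refine hsep P Q fun x hx => ?_
      obtain ⟨a, -, ha⟩ := hspanb x (Submodule.subset_span hx)
      rw [ha, ha]
      exact Finset.sum_congr rfl fun i _ => by rw [hPQ i]) (fun q T => a T q.2 q.1)
    (fun q T => ha T q.2 q.1) (fun T j P => ha' T j P)
  refine ⟨_, hHopf, fun T hT f hf => ?_⟩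
  have hval : ∀ x ∈ Algebra.adjoin R0 (Set.range fun (q : ι × ι) (T : V) => a T q.2 q.1), ∀ P,
      x P ∈ (algebraMap A Ω).range := by
    intro x hx P
    induction hx using Algebra.adjoin_induction with
    | mem x hx =>
      obtain ⟨q, rfl⟩ := hx
      exact ha P q.2 q.1
    | algebraMap r =>
      obtain ⟨c, hc⟩ := hR0 r
      exact ⟨c, hc⟩
    | add x y _ _ hx hy => exact add_mem hx hy
    | mul x y _ _ hx hy => exact mul_mem hx hy
  induction hf using Algebra.adjoin_induction with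
  | mem x hx =>
    obtain ⟨⟨i, j⟩, rfl⟩ := hx
    change a T j i - a 0 j i ∈ mOm A k Ω
    obtain ⟨h, hh, hj⟩ := NN_mem 𝓓 X hR0 (b j).2
    obtain ⟨c, hc, hc'⟩ := hnnb _ (trans_sub_mem 𝓓 hv X hXn hrefl hT hh)
    have h1 : (fun i => a T j i - a 0 j i) = c := by
      apply huniq
      intro P
      rw [← hc' P]
      have h2 := ha' T j P
      have h3 := ha' 0 j P
      rw [add_zero] at h3
      simp only [sub_mul, Finset.sum_sub_distrib]
      rw [← h2, ← h3, hj, toΩ_apply, toΩ_apply, map_sub]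
    rw [show a T j i - a 0 j i = (fun i => a T j i - a 0 j i) i from rfl, h1]
    exact hc i
  | algebraMap r =>
    change algebraMap R0 Ω r - algebraMap R0 Ω r ∈ _
    rw [sub_self]
    exact mOm_zero
  | add x y _ _ hx hy =>
    have : (x + y) T - (x + y) 0 = (x T - x 0) + (y T - y 0) := by
      simp only [Pi.add_apply]; ring
    rw [this]
    exact mOm_add hx hy
  | mul x y hx' hy' hx hy =>
    have : (x * y) T - (x * y) 0 = (x T - x 0) * y T + (y T - y 0) * x 0 := by
      simp only [Pi.mul_apply]; ring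
    rw [this]
    exact mOm_add (mOm_mul hx (hval _ hy' _)) (mOm_mul hy (hval _ hx' _))

include hv hρ hA hR0 hφ hφeq in
/-- **Main theorem**: finite Galois stable groups of divisor classes on a curve with good
reduction come from finite flat group schemes in which the kernel of reduction is connected. -/
theorem exists_conn_pic (H : FixData (M := M) ρ v w)
    (h𝒪 : IsOver R0 (algebraMap A Ω).range) :
    ∃ H : Subalgebra R0 (V → Ω), IsHopfFn act H ∧
      ∀ T, 𝓓.sp (φ T) = 0 → ∀ f ∈ H, f T - f 0 ∈ mOm A k Ω := by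
  obtain ⟨X, hXn, hrefl⟩ := exists_fam' 𝓓 hv H act φ hφeq
  exact exists_conn_of_fam 𝓓 hv X H hρ hA hR0 hφ hφeq hXn hrefl h𝒪

end Fermat.Agent.MzC
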