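import Fermat.Agent.MzC.Hopf
import Fermat.Agent.FFG.JZero
import Fermat.Agent.Spec.Main

/-!
# The kernel of reduction of `J₀(N)` is connected
-/

set_option autoImplicit false
set_option linter.unusedSectionVars false
set_option linter.style.haveILetI false

noncomputable section

namespace Fermat.Agent.MzC

open AlgebraicCurve Fermat.Agent.RR Fermat.Agent.Curve Fermat.Agent.Red Fermat.Agent.Spec
open Fermat.Agent.Flat Fermat.Agent.Places ModularCurve Fermat.Agent.RedMod Fermat.Agent.Cov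
open Fermat.Agent.ModPoly Module Fermat.Agent.FFG

local notation "Ω" => AlgebraicClosure ℚ

local notation "𝒢" => (AlgebraicClosure ℚ) ≃ₐ[ℚ] (AlgebraicClosure ℚ)

attribute [local instance] Fermat.Agent.Spec.algI Fermat.Agent.Spec.isScalarTower_algI

variable {A : ValuationSubring (AlgebraicClosure ℚ)} (F₀ : IntermediateField ℚ (LaurentSeries ℚ))
  {k : Type} [Field k] [Algebra A k]

section main

variable {p : ℕ} [Fact p.Prime] (hA : A.LiesOverPrime p)
  {E' : IntermediateField k (LaurentSeries k)}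
  [FunField Ω (laurentBaseChange Ω F₀)] [FunField k E']
  [IsAlgClosed k]
  {ι : Type*} [Fintype ι] {y : ι → LaurentSeries ℤ} (G : GP A (laurentBaseChange Ω F₀) E' y)
  (S : SP G) (hg : rrGenus k E' = rrGenus Ω (laurentBaseChange Ω F₀))
  {hk : Function.Surjective (algebraMap A k)}
  (S' : LevelRed hk (laurentBaseChange Ω F₀) E')

include hA S hg in
/-- **Finite flat models of finite groups of divisor classes with connected kernel of reduction,
for fields of Laurent series.** -/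
theorem exists_conn_laurent {V : Type} [AddCommGroup V] [Finite V]
    (act : (Ω ≃ₐ[R0 A] Ω) → V → V) (φ : V →+ Pic0 Ω (laurentBaseChange Ω F₀))
    (hφ : Function.Injective φ) (hφeq : ∀ γ P, φ (act γ P) = rhoA F₀ γ • φ P) :
    ∃ H : Subalgebra (R0 A) (V → Ω), IsHopfFn act H ∧
      ∀ T, S'.D.sp (φ T) = 0 → ∀ f ∈ H, f T - f 0 ∈ mOm A k Ω := by
  classical
  haveI := isPrincipalIdealRing_R0 hA
  have Hf := fibreHypG S
  rw [hg] at Hf
  obtain ⟨v, hv⟩ := Cusp.exists_place_of_order (laurentBaseChange Ω F₀).val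
    ⟨⟨jqModC Ω, G.jK⟩, order_jqModC_Om⟩
  obtain ⟨w, hw⟩ := S'.D.r_single v
  have hred : ∀ (γ : Ω ≃ₐ[R0 A] Ω), ∀ x (hx : x ∈ S'.M.W), ∃ h : rhoA F₀ γ • x ∈ S'.M.W,
      S'.M.π ⟨rhoA F₀ γ • x, h⟩ = S'.M.π ⟨x, hx⟩ := by
    intro γ x hx
    obtain ⟨h, h'⟩ := red_coeffMap hk γ (x := (x : LaurentSeries Ω)) ((S'.mem_W x).1 hx)
    refine ⟨(S'.mem_W _).2 h, Subtype.ext ?_⟩
    rw [S'.coe_π, S'.coe_π]
    exact h'
  have hfix : ∀ γ : Ω ≃ₐ[R0 A] Ω, rhoA F₀ γ • v = v := by
    intro γ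
    apply place_ext
    intro x
    have h1 := SemilinearAut.ord_smul (rhoA F₀ γ) v ((rhoA F₀ γ)⁻¹ • x)
    rw [smul_inv_smul] at h1
    rw [h1, hv, hv]
    have h2 := order_coeffMap' γ (((rhoA F₀ γ)⁻¹ • x : laurentBaseChange Ω F₀) : LaurentSeries Ω)
    rw [← coe_rhoA, smul_inv_smul] at h2
    exact h2.symm
  have hLD : LiftData S'.M (fun γ : Ω ≃ₐ[R0 A] Ω =>
      DistribSMul.toAddMonoidHom (laurentBaseChange Ω F₀) (rhoA F₀ γ)) (fixScal A) (p : A) := by
    have hfs : ∀ (γ : Ω ≃ₐ[R0 A] Ω) (a : A), a ∈ fixScal A → γ (algebraMap A Ω a) = algebraMap A Ω a :=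
      fun γ a ha => fix_K0 A γ ha
    refine ⟨fun γ a ha x => ?_, exists_fixScal' hk hA, ?_, ?_, ?_, ?_⟩
    · change rhoA F₀ γ • (a • x) = a • rhoA F₀ γ • x
      rw [← algebraMap_smul Ω a x, rhoA_smul, hfs γ a ha, algebraMap_smul]
    · change ((p : A) : Ω) ∈ K0 A
      push_cast
      exact natCast_mem (K0 A) p
    · intro h
      have := congrArg (fun z : A => (z : Ω)) h
      push_cast at this
      exact (Fact.out : p.Prime).ne_zero (by exact_mod_cast this)
    · intro x hx h0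
      have hxW : (x : laurentBaseChange Ω F₀) ∈ Hf.M.W := (S'.mem_W _).1 x.2
      have hx0 : Hf.M.π ⟨x, hxW⟩ = 0 := by
        apply Subtype.ext
        have h1 := S'.coe_π x x.2
        have h2 : ((S'.M.π ⟨(x : laurentBaseChange Ω F₀), x.2⟩ : E') : LaurentSeries k) = 0 := by
          have h3 : S'.M.π ⟨(x : laurentBaseChange Ω F₀), x.2⟩ = 0 := h0
          rw [h3]; rfl
        rw [h1] at h2
        exact h2
      obtain ⟨z, hz⟩ := gauss_disc (gaussG G) Hf.hk Hf.hspan
        (fun γ : Ω ≃ₐ[R0 A] Ω => ((rq γ : Ω ≃ₐ[ℚ] Ω) : Ω →+* Ω))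
        (fun γ => (SemilinearAut.toRingAut (rhoA F₀ γ) : laurentBaseChange Ω F₀ →+* _))
        (fun γ a => SemilinearAut.smul_algebraMap (rhoA F₀ γ) a)
        (fun γ => Subtype.ext (coeffMap_jqModC _)) (fun γ i => Subtype.ext (coeffMap_cst _ _))
        (p : A) (fun a ha hfa => by
          have h1 : (a : Ω) ∈ K0 A := mem_K0_of_fix A hfa
          have h2 : (a : Ω) ∈ A.nonunits := mem_nonunits_of_map G.hk ha
          obtain ⟨c, hc⟩ := R0_p_dvd hA (x := (⟨(a : Ω), a.2, h1⟩ : R0 A)) h2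
          refine ⟨⟨(c : Ω), c.2.1⟩, Subtype.ext ?_⟩
          have h3 := congrArg (fun z : R0 A => (z : Ω)) hc
          push_cast at h3 ⊢
          exact h3) ⟨x, hxW⟩ hx hx0
      refine ⟨⟨(z : laurentBaseChange Ω F₀), (S'.mem_W _).2 z.2⟩, Subtype.ext ?_⟩
      exact congrArg (fun t : Hf.M.W => (t : laurentBaseChange Ω F₀)) hz
    · intro a ha
      exact dvd_pow_ell hA a ha
  have H : FixData (M := S'.M) (rhoA (A := A) F₀) v w := by
    refine ⟨hred, hfix, ?_⟩
    obtain ⟨c, hc⟩ := S'.D.rd_eq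
    refine ⟨c, fun m hm y hy => ?_⟩
    have hrd := hc (Finsupp.single v m) (by rw [degree_single']; exact hm)
    rw [r_single_n S'.D hw] at hrd
    rw [← hrd] at hy
    obtain ⟨f, hfL, hffix, hfi⟩ := exists_fixed_basis (X := ℤ) (K := Ω)
      (F := laurentBaseChange Ω F₀)
      (fun n =>
        { toFun := fun x => (x : LaurentSeries Ω).coeff n
          map_add' := fun x y => rfl
          map_smul' := fun c x => by
            change ((c • x : laurentBaseChange Ω F₀) : LaurentSeries Ω).coeff n = _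
            exact coeff_smul_coe F₀ c x n })
      (fun x hx => by
        apply Subtype.ext
        ext n
        exact hx n)
      (fun γ : Ω ≃ₐ[R0 A] Ω => ((rq γ : Ω ≃ₐ[ℚ] Ω) : Ω →+* Ω))
      (fun γ x => rhoA F₀ γ • x)
      (fun γ n x => by
        change ((rhoA F₀ γ • x : laurentBaseChange Ω F₀) : LaurentSeries Ω).coeff n = _
        rw [coe_rhoA, coeffMap_coeff]
        rfl)
      (riemannRochSpace (Finsupp.single v m)) (fun γ x hx => by
        have h1 := smul_mem_L (rhoA F₀ γ) hx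
        rwa [SemilinearAut.smul_single, hfix γ] at h1)
    exact hLD.exists_lift hk f hfL hffix hfi hy
  exact exists_conn_pic S'.D hw (rhoA_smul F₀) (aut_A A) (R0_to_A A) hφ hφeq H (isOver A)

end main

section level

variable {N : ℕ} [NeZero N] {p : ℕ} [Fact p.Prime]

/-- **Connectedness of the kernel of reduction of `J₀(N)`.** -/
theorem exists_conn_J [IsAlgClosed k] (hA : A.LiesOverPrime p) {hk : Function.Surjective (algebraMap A k)}
    (hN : (N : k) ≠ 0) [FunField k (FF k N)] (S' : LevelRed hk (EB Ω N) (FF k N))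
    {V : Type} [AddCommGroup V] [Finite V]
    (act : 𝒢 → V → V) (φ : V →+ JZero N)
    (hφ : Function.Injective φ) (hφeq : ∀ (σ : 𝒢) P, φ (act σ P) = σ • φ P) :
    ∃ H : Subalgebra (R0 A) (V → Ω), IsHopfFn (actI (A := A) act) H ∧
      ∀ T, S'.D.sp (φ T) = 0 → ∀ f ∈ H, f T - f 0 ∈ mOm A k Ω := by
  haveI : FunField Ω (laurentBaseChange Ω (modularFunctionFieldFull N)) := by
    rw [X0Genus.baseChange_eq Ω N]
    exact funField_FF (k := Ω) (M := N) (by exact_mod_cast NeZero.ne N)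
  obtain ⟨G, S, hg⟩ := exists_GPSP_FF (A := A)
    (E := laurentBaseChange Ω (modularFunctionFieldFull N)) hk hN (X0Genus.baseChange_eq Ω N)
  exact exists_conn_laurent (modularFunctionFieldFull N) hA G S hg S' _ φ hφ
    (fun γ P => hφeq (rq γ) P)

/-- The kernel of a map `f` is connected in suitable finite flat models. -/
def ConnKer (A : ValuationSubring (AlgebraicClosure ℚ)) (N : ℕ) [NeZero N] {P : Type}
    [AddCommGroup P] (f : JZero N →+ P) : Prop :=
  ∀ (V : Type) [AddCommGroup V] [Finite V] (act : 𝒢 → V → V) (φ : V →+ JZero N),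
    Function.Injective φ → (∀ (σ : 𝒢) P, φ (act σ P) = σ • φ P) →
    ∃ H : Subalgebra (R0 A) (V → Ω), IsHopfFn (actI (A := A) act) H ∧
      ∀ T, f (φ T) = 0 → ∀ g ∈ H, g T - g 0 ∈ A.nonunits

theorem mOm_nonunits {hk : Function.Surjective (algebraMap A k)} {x : Ω} (hx : x ∈ mOm A k Ω) :
    x ∈ A.nonunits := by
  obtain ⟨a, ha, rfl⟩ := hx
  exact mem_nonunits_of_map hk ha

end level

end Fermat.Agent.MzC
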