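import Fermat.Agent.MzC.Main
import Fermat.Agent.MazD.XJ
import Fermat.Agent.PRem.Cls
import Fermat.Agent.PRem.ConcW

/-!
# Kummer classes of functions with trivial reduction
-/

set_option autoImplicit false
set_option linter.unusedSectionVars false
set_option linter.style.haveILetI false

noncomputable section

namespace Fermat.Agent.MzC

open AlgebraicCurve Fermat.Agent.RR Fermat.Agent.Curve Fermat.Agent.Red Fermat.Agent.Spec
open Fermat.Agent.Flat Fermat.Agent.Places ModularCurve Fermat.Agent.RedMod Fermat.Agent.Kum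
open Fermat.Agent.ModPoly Fermat.Agent.FFG Fermat.Agent.MazD

local notation "Ω" => AlgebraicClosure ℚ

local notation "𝒢" => (AlgebraicClosure ℚ) ≃ₐ[ℚ] (AlgebraicClosure ℚ)

attribute [local instance] Fermat.Agent.Spec.algI Fermat.Agent.Spec.isScalarTower_algI

variable {A : ValuationSubring (AlgebraicClosure ℚ)} {N m : ℕ} [NeZero N] [NeZero m]
  (ι : AlgebraicClosure ℚ →+* ℂ)

/-- the point of `J₀(N)` of the Kummer class of a function -/
theorem exists_clm_of_hasCls {f : FF Ω N} {u : XL N m} (h : PRem.HasCls ι m f u) :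
    ∃ hf : DM Ω m (PRem.toK f), clm hf = xToJ ι m u := by
  obtain ⟨x, hx, hxu, hx'⟩ := PRem.exists_good ι u 1
  have hg : Good m x := hx.of_dvd (dvd_mul_right _ _)
  obtain ⟨z, hz, rfl⟩ := hx'.exists_pow h
  have hz' : PRem.toK z ≠ 0 := by rwa [Ne, PRem.toK_eq_zero]
  have e : PRem.toK (PRem.ofK x * z ^ m) = x * PRem.toK z ^ m := by
    apply Subtype.ext
    simp only [PRem.coe_toK, MulMemClass.coe_mul, SubmonoidClass.coe_pow, PRem.coe_ofK]
  have h1 : DM Ω m (PRem.toK z ^ m) := DM.pow_self hz'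
  have h2 : DM Ω m (x * PRem.toK z ^ m) := (MazD.dm_of_good hg).mul h1
  have h3 : DM Ω m (PRem.toK (PRem.ofK x * z ^ m)) := by rw [e]; exact h2
  refine ⟨h3, ?_⟩
  rw [clm_congr h3 h2 e, clm_mul (MazD.dm_of_good hg) h1, clm_pow hz', add_zero, ← hxu,
    xToJ_cls ι hg]

section sp

variable {k : Type} [Field k] [Algebra A k] {E : IntermediateField Ω (LaurentSeries Ω)}
  {E' : IntermediateField k (LaurentSeries k)} [FunField Ω E] [FunField k E'] [IsAlgClosed k]
  {hk : Function.Surjective (algebraMap A k)} (S : LevelRed hk E E')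

/-- functions with constant reduction have divisors reducing to zero -/
theorem sp_clm_eq_zero {f : E} (hf : DM Ω m f)
    (h : PRem.Rd A (f : LaurentSeries Ω) (1 : LaurentSeries k)) : S.D.sp (clm hf) = 0 := by
  obtain ⟨hW, hπ⟩ := h
  have hW' : f ∈ S.M.W := (S.mem_W f).2 hW
  have h1 : S.M.π ⟨f, hW'⟩ = 1 := by
    apply Subtype.ext
    rw [S.coe_π]
    exact hπ
  have h2 := S.D.r_divisor hW' (by rw [h1]; exact one_ne_zero)
  have h3 : m • divm (K := Ω) m f = divisor Ω f := by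
    ext v
    rw [Finsupp.smul_apply, nsmul_eq_mul, hf.mul_divm, divisor_apply]
  have h4 : divisor k (1 : E') = 0 := by
    ext v
    rw [divisor_apply, Finsupp.coe_zero, Pi.zero_apply]
    exact v.ord_one
  rw [h1, h4, ← h3, map_nsmul] at h2
  have h5 : S.D.r (divm (K := Ω) m f) = 0 := by
    ext v
    have h6 := DFunLike.congr_fun h2 v
    rw [Finsupp.smul_apply, nsmul_eq_mul] at h6
    exact (mul_eq_zero.1 h6).resolve_left (by exact_mod_cast NeZero.ne m)
  rw [clm]
  refine S.D.sp_mk_eq_zero.2 ?_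
  rw [isPrincipal_iff]
  refine ⟨1, one_ne_zero, ?_⟩
  rw [h4]
  exact h5

end sp

variable {p : ℕ} [Fact p.Prime]

/-- `psi_eq_zero_J` for subgroups of an abstract model of torsion points -/
theorem psi_eq_zero_sub (hA : A.LiesOverPrime p) (hp2 : p ≠ 2) {P : Type} [AddCommGroup P]
    {f : JZero N →+ P} (hf : ConnKer A N f) {X : Type} [AddCommGroup X] [Finite X]
    (x : X →+ JZero N) (hx : Function.Injective x) (rho : 𝒢 → X → X)
    (hrho : ∀ σ ξ, x (rho σ ξ) = σ • x ξ) (V : AddSubgroup X)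
    (hV : ∀ σ ∈ A.inertiaSubgroupIn ℚ, ∀ v ∈ V, rho σ v ∈ V)
    (ψ : V →+ ZMod p)
    (hψ : ∀ σ (hσ : σ ∈ A.inertiaSubgroupIn ℚ) (v : V), ψ ⟨rho σ v, hV σ hσ v v.2⟩ = ψ v)
    {u : X} (hu : u ∈ V) (h0 : f (x u) = 0) : ψ ⟨u, hu⟩ = 0 := by
  classical
  let φ : V →+ (Unit → JZero N) :=
    { toFun := fun v _ => x (v : X)
      map_zero' := by
        funext _
        exact map_zero _
      map_add' := fun a b => by
        funext _
        exact map_add _ _ _ }
  have hφ : Function.Injective φ := fun a b h => Subtype.ext (hx (congrFun h ()))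
  refine psi_eq_zero_J (W := V) (ι := Unit) hA hp2 hf
    (act := fun σ v => if hσ : σ ∈ A.inertiaSubgroupIn ℚ then
      ⟨rho σ v, hV σ hσ v v.2⟩ else v) φ hφ ?_ ψ ?_ (T := ⟨u, hu⟩) (fun j => h0)
  · intro σ hσ w j
    change x ((if hσ : σ ∈ A.inertiaSubgroupIn ℚ then
      (⟨rho σ w, hV σ hσ w w.2⟩ : V) else w : V) : X) = σ • x (w : X)
    rw [dif_pos hσ]
    exact hrho σ w
  · intro σ hσ w
    rw [dif_pos hσ]
    exact hψ σ hσ w

variable {k : Type} [Field k] [Algebra A k] [IsAlgClosed k] [CharP k p]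

instance finite_XL : Finite (XL N m) := by
  refine Finite.of_injective (β := JT N m) (fun ξ => ⟨xToJ exists_ιC.some m ξ, nsmul_xToJ _ ξ⟩) ?_
  intro a b h
  exact xToJ_injective _ (congrArg Subtype.val h)

/-- **(OLD)**: inertia-invariant functionals kill the Kummer classes of functions with trivial
reduction. -/
theorem psi_eq_zero_cls (hA : A.LiesOverPrime p) (hk : Function.Surjective (algebraMap A k))
    (hp2 : p ≠ 2) (hpN : ¬ p ∣ N)
    (V : AddSubgroup (XL N m))
    (hV : ∀ σ ∈ A.inertiaSubgroupIn ℚ, ∀ v ∈ V, rhoF ι m σ v ∈ V)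
    (ψ : V →+ ZMod p)
    (hψ : ∀ σ (hσ : σ ∈ A.inertiaSubgroupIn ℚ) (v : V),
      ψ ⟨rhoF ι m σ v, hV σ hσ v v.2⟩ = ψ v)
    {f : FF Ω N} {u : XL N m} (hu : u ∈ V) (hf : PRem.HasCls ι m f u)
    (h1 : PRem.Rd A (f : LaurentSeries Ω) (1 : LaurentSeries k)) : ψ ⟨u, hu⟩ = 0 := by
  classical
  have hNk : (N : k) ≠ 0 := by
    rw [Ne, CharP.cast_eq_zero_iff k p]
    exact hpN
  haveI := funField_FF (k := k) (M := N) hNk
  obtain ⟨S⟩ := nonempty_levelRed (A := A) (K := Ω) (k := k) ι hk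
    (N := N) hNk (EB Ω N) (X0Genus.baseChange_eq Ω N)
  have hconn : ConnKer A N S.D.sp := fun V _ _ act φ hφ hφeq => by
    obtain ⟨H, hH, hH'⟩ := exists_conn_J hA hNk S act φ hφ hφeq
    exact ⟨H, hH, fun T hT g hg => mOm_nonunits (hk := hk) (hH' T hT g hg)⟩
  obtain ⟨hfd, hfu⟩ := exists_clm_of_hasCls ι hf
  refine psi_eq_zero_sub hA hp2 hconn (xToJ ι m) (xToJ_injective ι) (fun σ v => rhoF ι m σ v)
    (xToJ_rho ι) V hV ψ hψ hu ?_
  rw [← hfu]
  exact sp_clm_eq_zero S hfd h1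

end Fermat.Agent.MzC
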