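import Fermat.Agent.MzC.RelB

/-!
# Pairs of functions congruent modulo the maximal ideal
-/

set_option autoImplicit false
set_option linter.unusedSectionVars false
set_option linter.style.haveILetI false

noncomputable section

namespace Fermat.Agent.MzC

open AlgebraicCurve Fermat.Agent.RR Fermat.Agent.Curve Fermat.Agent.Red Fermat.Agent.Spec Module
open Fermat.Agent.FFG

section nn

variable {A V : Type*} (k : Type*) [CommRing A] [Field k] [Algebra A k]

/-- the functions divisible by the maximal ideal -/
def nn (L : Subalgebra A (V → A)) : Submodule A (V → A) :=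
  (RingHom.ker (algebraMap A k)) • Subalgebra.toSubmodule L

variable {k} {L : Subalgebra A (V → A)}

theorem smul_mem_nn {a : A} (ha : algebraMap A k a = 0) {h : V → A} (hh : h ∈ L) :
    a • h ∈ nn k L :=
  Submodule.smul_mem_smul ((RingHom.mem_ker).2 ha) hh

theorem nn_induction {p : (V → A) → Prop} (hs : ∀ a : A, algebraMap A k a = 0 → ∀ h ∈ L, p (a • h))
    (ha : ∀ x y, p x → p y → p (x + y)) {x : V → A} (hx : x ∈ nn k L) : p x :=
  Submodule.smul_induction_on hx (fun a ha h hh => hs a ((RingHom.mem_ker).1 ha) h hh) ha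

theorem nn_le {x : V → A} (hx : x ∈ nn k L) : x ∈ L := by
  refine nn_induction (p := fun x => x ∈ L) (fun a _ h hh => L.smul_mem hh a)
    (fun x y hx hy => add_mem hx hy) hx

theorem mul_mem_nn {h : V → A} (hh : h ∈ L) {x : V → A} (hx : x ∈ nn k L) : h * x ∈ nn k L := by
  refine nn_induction (p := fun x => h * x ∈ nn k L) (fun a ha g hg => ?_)
    (fun x y hx hy => ?_) hx
  · rw [mul_smul_comm]
    exact smul_mem_nn ha (L.mul_mem hh hg)
  · rw [mul_add]; exact add_mem hx hy

theorem comp_mem_nn {s : V → V} (hs : ∀ h ∈ L, (fun P => h (s P)) ∈ L) {x : V → A}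
    (hx : x ∈ nn k L) : (fun P => x (s P)) ∈ nn k L := by
  exact nn_induction (p := fun x => (fun P => x (s P)) ∈ nn k L)
    (fun a ha g hg => smul_mem_nn ha (hs g hg)) (fun x y hx hy => add_mem hx hy) hx

theorem nn_apply {x : V → A} (hx : x ∈ nn k L) (P : V) : algebraMap A k (x P) = 0 := by
  refine nn_induction (p := fun x => algebraMap A k (x P) = 0) (fun a ha g _ => ?_)
    (fun x y hx hy => ?_) hx
  · rw [Pi.smul_apply, smul_eq_mul, map_mul, ha, zero_mul]
  · rw [Pi.add_apply, map_add, hx, hy, add_zero]

variable (k L) in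
/-- pairs of functions congruent modulo the maximal ideal -/
def pairH : Subalgebra A (V × Bool → A) where
  carrier := {h | (fun P => h (P, false)) ∈ L ∧
    (fun P => h (P, true) - h (P, false)) ∈ nn k L}
  mul_mem' := by
    rintro x y ⟨hx, hx'⟩ ⟨hy, hy'⟩
    refine ⟨L.mul_mem hx hy, ?_⟩
    have h1 : (fun P => (x * y) (P, true) - (x * y) (P, false)) =
        (fun P => x (P, false)) * (fun P => y (P, true) - y (P, false)) +
        ((fun P => y (P, false)) + fun P => y (P, true) - y (P, false)) *
          fun P => x (P, true) - x (P, false) := by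
      funext P
      simp only [Pi.mul_apply, Pi.add_apply]
      ring
    rw [h1]
    exact add_mem (mul_mem_nn hx hy') (mul_mem_nn (add_mem hy (nn_le hy')) hx')
  add_mem' := by
    rintro x y ⟨hx, hx'⟩ ⟨hy, hy'⟩
    refine ⟨add_mem hx hy, ?_⟩
    have h1 : (fun P => (x + y) (P, true) - (x + y) (P, false)) =
        (fun P => x (P, true) - x (P, false)) + fun P => y (P, true) - y (P, false) := by
      funext P
      simp only [Pi.add_apply]
      ring
    rw [h1]
    exact add_mem hx' hy'
  algebraMap_mem' r := by
    refine ⟨L.algebraMap_mem r, ?_⟩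
    have h1 : (fun P : V => (algebraMap A (V × Bool → A) r) (P, true) -
        (algebraMap A (V × Bool → A) r) (P, false)) = 0 := by
      funext P
      exact sub_self _
    rw [h1]
    exact zero_mem _

theorem mem_pairH {h : V × Bool → A} : h ∈ pairH k L ↔ (fun P => h (P, false)) ∈ L ∧
    (fun P => h (P, true) - h (P, false)) ∈ nn k L := Iff.rfl

theorem const_mem_pairH {h : V → A} (hh : h ∈ L) : (fun q : V × Bool => h q.1) ∈ pairH k L := by
  refine ⟨hh, ?_⟩
  have h1 : (fun P : V => (fun q : V × Bool => h q.1) (P, true) -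
      (fun q : V × Bool => h q.1) (P, false)) = 0 := by
    funext P
    exact sub_self _
  rw [h1]
  exact zero_mem _

theorem ite_mem_pairH {a : A} (ha : algebraMap A k a = 0) :
    (fun q : V × Bool => if q.2 then a else 0) ∈ pairH k L := by
  refine ⟨?_, ?_⟩
  · have h1 : (fun P : V => (fun q : V × Bool => if q.2 then a else 0) (P, false)) = 0 := by
      funext P
      simp
    rw [h1]
    exact zero_mem _
  · have h1 : (fun P : V => (fun q : V × Bool => if q.2 then a else 0) (P, true) -
        (fun q : V × Bool => if q.2 then a else 0) (P, false)) = a • 1 := by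
      funext P
      simp
    rw [h1]
    exact smul_mem_nn ha (one_mem L)

end nn

variable {A K F k R : Type*} [CommRing A] [IsDomain A] [ValuationRing A]
  [Field K] [Algebra A K] [IsFractionRing A K] [Field F] [Algebra K F] [Algebra A F]
  [IsScalarTower A K F] [Field k] [Algebra A k] [Field R] [Algebra k R] [Algebra A R]
  [IsScalarTower A k R]
  [IsAlgClosed K] [IsAlgClosed k] [FunField K F] [FunField k R]
  {M : RedModel A K F k R} {hk : Function.Surjective (algebraMap A k)}
  (𝓓 : DivRed A K F k R M hk) {v : Place K F} {w : Place k R}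
  (hv : 𝓓.r (Finsupp.single v 1) = Finsupp.single w 1)

section fam

variable {V : Type*} {L : Subalgebra A (V → A)} {U : Submodule K F}

/-- families over `V` as families over `V × Bool` -/
theorem fam_const_pair {x : V → F} (hx : x ∈ famSpan M L U) :
    (fun q : V × Bool => x q.1) ∈ famSpan M (pairH k L) U := by
  induction hx using Submodule.span_induction with
  | mem x hx =>
    obtain ⟨g, hg, e, he, rfl⟩ := hx
    exact smul_mem_fam (const_mem_pairH hg) he
  | zero => exact zero_mem (famSpan M (pairH k L) U)
  | add x y _ _ hx hy => exact add_mem hx hy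
  | smul a x _ hx => exact Submodule.smul_mem _ a hx

theorem fam_pair [FiniteDimensional K U] (e : Bool → M.W) (he : ∀ b, (e b : F) ∈ U)
    (hπ : M.π (e true) = M.π (e false)) :
    (fun q : V × Bool => (e q.2 : F)) ∈ famSpan M (pairH k L) U := by
  have h2 : (e true : F) - e false ∈ M.lat U := sub_mem ⟨(e true).2, he _⟩ ⟨(e false).2, he _⟩
  have h3 : M.π ⟨(e true : F) - e false, h2.1⟩ = 0 := by
    have : (⟨(e true : F) - e false, h2.1⟩ : M.W) = e true - e false := rfl
    rw [this, map_sub, hπ, sub_self]
  obtain ⟨a, ha, z, hz, haz⟩ := M.exists_of_red_eq_zero h2 h3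
  have h4 : (fun q : V × Bool => (e q.2 : F)) = (fun _ => (e false : F)) +
      fun q : V × Bool => algebraMap A K (if q.2 then a else 0) • z := by
    funext ⟨P, b⟩
    cases b with
    | false => simp
    | true =>
      have : algebraMap A K a • z = (e true : F) - e false := by
        rw [algebraMap_smul]; exact haz.symm
      simp only [Pi.add_apply, if_true]
      rw [this]
      ring
  rw [h4]
  exact add_mem (const_mem_fam ⟨(e false).2, he _⟩)
    (smul_mem_fam (h := fun q : V × Bool => if q.2 then a else 0) (ite_mem_pairH ha) hz)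

end fam

section basis

include hk in
/-- two lattices with the same reduction have bases with the same reduction -/
theorem exists_pair_basis (U : Bool → Submodule K F) [∀ b, FiniteDimensional K (U b)]
    (hU : M.rd hk (U true) = M.rd hk (U false)) :
    ∃ (d : ℕ) (e : Fin d → Bool → M.W), (∀ i b, (e i b : F) ∈ U b) ∧
      (∀ b (y : M.W), (y : F) ∈ U b → ∃ c : Fin d → A, y = ∑ i, c i • e i b) ∧
      (∀ b, LinearIndependent k fun i => M.π (e i b)) ∧
      ∀ i, M.π (e i true) = M.π (e i false) := by
  classical
  obtain ⟨d, hd⟩ : ∃ d, finrank A (M.lat (U false)) = d := ⟨_, rfl⟩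
  let ε : Basis (Fin d) A (M.lat (U false)) := Module.finBasisOfFinrankEq A _ hd
  have hlift : ∀ i, ∃ x : M.W, (x : F) ∈ U true ∧ M.π x = M.redLin _ (ε i) := by
    intro i
    have h1 : M.redLin _ (ε i) ∈ M.rd hk (U false) := ⟨ε i, (ε i).2, rfl⟩
    rw [← hU] at h1
    obtain ⟨x, hx, hxy⟩ := h1
    exact ⟨⟨x, hx.1⟩, hx.2, hxy⟩
  choose x hxU hxπ using hlift
  let e : Fin d → Bool → M.W := fun i b => if b then x i else ⟨(ε i : F), (ε i).2.1⟩
  have he0 : ∀ i b, M.π (e i b) = M.redLin _ (ε i) := by
    intro i b
    cases b with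
    | false => rfl
    | true => exact hxπ i
  have hli := M.linearIndependent_red hk ε
  refine ⟨d, e, ?_, ?_, fun b => ?_, fun i => by rw [he0, he0]⟩
  · intro i b
    cases b with
    | false => exact (ε i).2.2
    | true => exact hxU i
  · intro b y hy
    cases b with
    | false =>
      refine ⟨fun i => ε.repr ⟨(y : F), y.2, hy⟩ i, ?_⟩
      apply Subtype.ext
      have h1 := congrArg Subtype.val (ε.sum_repr ⟨(y : F), y.2, hy⟩)
      rw [coe_sum_smul]
      refine h1.symm.trans ?_
      rw [AddSubmonoidClass.coe_finsetSum]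
      refine Finset.sum_congr rfl fun l _ => ?_
      rw [algebraMap_smul]; rfl
    | true =>
      let N : Submodule A F := Submodule.span A (Set.range fun i => (x i : F))
      have hfg : (M.lat (U true)).FG := M.fg _ inferInstance
      have hle : M.lat (U true) ≤ N ⊔ IsLocalRing.maximalIdeal A • M.lat (U true) := by
        intro y hy
        have h1 : M.π ⟨y, hy.1⟩ ∈ M.rd hk (U false) := by
          rw [← hU]; exact ⟨y, hy, rfl⟩
        obtain ⟨z, hz, hzy⟩ := h1
        let z' : M.lat (U false) := ⟨z, hz⟩
        let y2 : F := ∑ i, algebraMap A K (ε.repr z' i) • (x i : F)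
        have hy2W : y2 = ((∑ i, ε.repr z' i • x i : M.W) : F) := by rw [coe_sum_smul]
        have hy2U : y2 ∈ U true := Submodule.sum_mem _ fun i _ => Submodule.smul_mem _ _ (hxU i)
        have hy2N : y2 ∈ N := Submodule.sum_mem _ fun i _ => by
          rw [algebraMap_smul]
          exact Submodule.smul_mem _ _ (Submodule.subset_span ⟨i, rfl⟩)
        have hy2lat : y2 ∈ M.lat (U true) := ⟨by rw [hy2W]; exact Subtype.property _, hy2U⟩
        have h2 : y - y2 ∈ M.lat (U true) := sub_mem hy hy2lat
        have h3 : M.π ⟨y - y2, h2.1⟩ = 0 := by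
          have h4 : (⟨y - y2, h2.1⟩ : M.W) = ⟨y, hy.1⟩ - ∑ i, ε.repr z' i • x i :=
            Subtype.ext (by rw [Subalgebra.coe_sub, ← hy2W])
          rw [h4, map_sub, π_sum_smul, ← hzy]
          have h5 : ((M.π : M.W → R) ⟨z, hz.1⟩) = ∑ i, algebraMap A k (ε.repr z' i) • M.π (x i) := by
            have h6 : M.redLin _ z' = ∑ i, algebraMap A k (ε.repr z' i) • M.redLin _ (ε i) := by
              conv_lhs => rw [← ε.sum_repr z']
              rw [map_sum]
              refine Finset.sum_congr rfl fun i _ => ?_
              rw [map_smul, algebraMap_smul]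
            refine h6.trans (Finset.sum_congr rfl fun i _ => ?_)
            rw [hxπ]
          rw [← h5]
          exact sub_self _
        obtain ⟨a, ha, z2, hz2, hyz⟩ := M.exists_of_red_eq_zero h2 h3
        have h4 : y = y2 + a • z2 := by rw [← hyz]; abel
        rw [h4]
        refine Submodule.add_mem_sup hy2N (Submodule.smul_mem_smul ?_ hz2)
        rw [IsLocalRing.mem_maximalIdeal, mem_nonunits_iff]
        intro hu
        have := hu.map (algebraMap A k)
        rw [ha] at this
        exact not_isUnit_zero this
      have h5 := Submodule.le_of_le_smul_of_le_jacobson_bot hfg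
        (IsLocalRing.maximalIdeal_le_jacobson _) hle
      obtain ⟨c, hc⟩ := (Submodule.mem_span_range_iff_exists_fun A).1 (h5 ⟨y.2, hy⟩)
      refine ⟨c, Subtype.ext ?_⟩
      rw [coe_sum_smul, ← hc]
      exact Finset.sum_congr rfl fun i _ => by rw [algebraMap_smul]; rfl
  · simp only [he0]
    exact hli

end basis

end Fermat.Agent.MzC
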