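import Fermat.Agent.FFG.Reflect

/-!
# Residual divisors in families, with coefficients in a ring of functions
-/

set_option autoImplicit false
set_option linter.unusedSectionVars false
set_option linter.style.haveILetI false

noncomputable section

namespace Fermat.Agent.MzC

open AlgebraicCurve Fermat.Agent.RR Fermat.Agent.Curve Fermat.Agent.Red Fermat.Agent.Spec Module
open Fermat.Agent.FFG

variable {A K F k R : Type*} [CommRing A] [IsDomain A] [ValuationRing A]
  [Field K] [Algebra A K] [IsFractionRing A K] [Field F] [Algebra K F] [Algebra A F]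
  [IsScalarTower A K F] [Field k] [Algebra A k] [Field R] [Algebra k R] [Algebra A R]
  [IsScalarTower A k R]
  [IsAlgClosed K] [IsAlgClosed k] [FunField K F] [FunField k R]
  {M : RedModel A K F k R} {hk : Function.Surjective (algebraMap A k)}
  (𝓓 : DivRed A K F k R M hk) {v : Place K F} {w : Place k R}
  (hv : 𝓓.r (Finsupp.single v 1) = Finsupp.single w 1)

section fam

variable {V : Type*} {𝓗 : Subalgebra A (V → A)} {U U' : Submodule K F}

theorem fam_smul {h : V → A} (hh : h ∈ 𝓗) {x : V → F} (hx : x ∈ famSpan M 𝓗 U) :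
    (fun P => algebraMap A K (h P) • x P) ∈ famSpan M 𝓗 U := by
  induction hx using Submodule.span_induction with
  | mem x hx =>
    obtain ⟨g, hg, e, he, rfl⟩ := hx
    have : (fun P => algebraMap A K (h P) • algebraMap A K (g P) • e) =
        fun P => algebraMap A K ((h * g) P) • e := by
      funext P
      rw [smul_smul, Pi.mul_apply, map_mul]
    beta_reduce
    rw [this]
    exact smul_mem_fam (𝓗.mul_mem hh hg) he
  | zero =>
    have : (fun P : V => algebraMap A K (h P) • (0 : V → F) P) = 0 := by funext P; simp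
    rw [this]; exact zero_mem _
  | add x y _ _ hx hy =>
    have : (fun P : V => algebraMap A K (h P) • (x + y) P) =
        (fun P => algebraMap A K (h P) • x P) + fun P => algebraMap A K (h P) • y P := by
      funext P; simp [smul_add]
    rw [this]; exact add_mem hx hy
  | smul a x _ hx =>
    have : (fun P : V => algebraMap A K (h P) • (a • x) P) =
        a • fun P => algebraMap A K (h P) • x P := by
      funext P
      rw [Pi.smul_apply, Pi.smul_apply, smul_comm]
    rw [this]; exact Submodule.smul_mem _ _ hx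

theorem fam_mono (hU : U ≤ U') {x : V → F} (hx : x ∈ famSpan M 𝓗 U) : x ∈ famSpan M 𝓗 U' := by
  refine Submodule.span_mono ?_ hx
  rintro f ⟨h, hh, e, he, rfl⟩
  exact ⟨h, hh, e, ⟨he.1, hU he.2⟩, rfl⟩

theorem fam_sum {τ : Type*} [Fintype τ] {a : τ → V → A} (ha : ∀ i, a i ∈ 𝓗) {x : τ → V → F}
    (hx : ∀ i, x i ∈ famSpan M 𝓗 U) :
    (fun P => ∑ i, algebraMap A K (a i P) • x i P) ∈ famSpan M 𝓗 U := by
  have : (fun P => ∑ i, algebraMap A K (a i P) • x i P) =
      ∑ i, fun P => algebraMap A K (a i P) • x i P := by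
    funext P; rw [Finset.sum_apply]
  rw [this]
  exact sum_mem fun i _ => fam_smul (ha i) (hx i)

end fam

section

variable {V : Type*} [Finite V] {ι : Type*} [Fintype ι] {E : V → Divisor K F} {ws : ι → M.W}
  (hcomp : ∀ P, Comp 𝓓 v w (E P) ws) {𝓗 : Subalgebra A (V → A)} (h𝓗 : coordRing v E ws ≤ 𝓗)

include hv hcomp h𝓗 in
/-- the coordinates of a family with coefficients in `𝓗` are in `𝓗` -/
theorem fam_coord {U : Submodule K F} [FiniteDimensional K U] (hU : U ≤ II v 0) {x : V → F}
    (hx : x ∈ famSpan M 𝓗 U) {c : V → ι → A}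
    (hc : ∀ P, x P - ((∑ j, c P j • ws j : M.W) : F) ∈ II v (E P)) (j : ι) :
    (fun P => c P j) ∈ 𝓗 := by
  classical
  let ε := Module.Free.chooseBasis A (M.lat U)
  obtain ⟨X, hX, hX'⟩ := fam_repr ε hx
  have hε0 : ∀ a, (ε a : F) ∈ II v 0 := fun a => hU (ε a).2.2
  choose d hd using fun a P => (hcomp P).exists_coord hv (b := ⟨(ε a : F), (ε a).2.1⟩) (hε0 a)
  have h1 : ∀ P, c P = fun j => ∑ a, X a P * d a P j := by
    intro P
    refine (hcomp P).unique' hv (hc P) ?_
    rw [hX']
    have h2 : (∑ a, algebraMap A K (X a P) • (ε a : F)) -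
        ((∑ j, (∑ a, X a P * d a P j) • ws j : M.W) : F) =
        ∑ a, algebraMap A K (X a P) • ((ε a : F) - ((∑ j, d a P j • ws j : M.W) : F)) := by
      simp only [smul_sub, Finset.sum_sub_distrib]
      congr 1
      simp only [coe_sum_smul, Finset.smul_sum, smul_smul, ← map_mul]
      rw [Finset.sum_comm]
      refine Finset.sum_congr rfl fun j _ => ?_
      rw [map_sum, Finset.sum_smul]
    rw [h2]
    exact Submodule.sum_mem _ fun a _ => Submodule.smul_mem _ _ (hd a P)
  have h2 : (fun P => c P j) = ∑ a, (X a * fun P => d a P j) := by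
    funext P
    rw [h1 P, Finset.sum_apply]
    rfl
  rw [h2]
  exact sum_mem fun a _ => 𝓗.mul_mem (hX a) (h𝓗 (coord_mem (b := ⟨(ε a : F), (ε a).2.1⟩)
    (hε0 a) (fun P => hd a P) j))

end

section

variable {V : Type*} [Finite V] {ι : Type*} [Fintype ι] {E : V → Divisor K F} {ws : ι → M.W}
  (hcomp : ∀ P, Comp 𝓓 v w (E P) ws) (hEw : ∀ P, 𝓓.r (E P) w = 0)
  (hell : ∀ P, ell (𝓓.r (E P)) ≤ 1)
  (s : V → V) (Z : V → Divisor K F) (Zk : Divisor k R) (n : ℤ) (hZ : ∀ P, 0 ≤ Z P)
  (hZr : ∀ P, 𝓓.r (Z P) = Zk) (hZw : Zk w = 0)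
  (hdisj : ∀ P u, Zk u = 0 ∨ 𝓓.r (E P) u = 0)
  {𝓗 : Subalgebra A (V → A)} (h𝓗 : coordRing v E ws ≤ 𝓗)

include hEw hZw hdisj in
/-- functions vanishing along the reductions of `Z` and of `E P` -/
theorem mem_L_disj' {P : V} {m : ℤ} {x : R}
    (h1 : x ∈ riemannRochSpace (Finsupp.single w m - Zk))
    (h2 : x ∈ II w (𝓓.r (E P))) :
    x ∈ riemannRochSpace (Finsupp.single w m - Zk - 𝓓.r (E P)) := by
  rw [mem_L] at h1 ⊢
  intro p
  have h3 := h1 p
  rw [Finsupp.sub_apply] at h3
  rw [Finsupp.sub_apply, Finsupp.sub_apply]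
  by_cases hp : p = w
  · subst hp
    rw [hEw P]
    exact h3.mono (by omega)
  · rcases hdisj P p with h4 | h4
    · have h5 := h2 p hp
      rw [h4, Finsupp.single_eq_of_ne hp]
      exact h5.mono (by omega)
    · rw [h4]
      exact h3.mono (by omega)

include hv hcomp hEw hell hZ hZr hZw hdisj h𝓗 in
/-- **The functions with divisor `E P + E (s P) + Z P - n v` have coefficients in `𝓗`.** -/
theorem exists_u' {τ : Type*} [Fintype τ] (e : τ → V → M.W)
    (he1 : ∀ i P, (e i P : F) ∈ riemannRochSpace (Finsupp.single v n - Z P))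
    (he2 : ∀ P (y : M.W), (y : F) ∈ riemannRochSpace (Finsupp.single v n - Z P) →
      ∃ c : τ → A, y = ∑ i, c i • e i P)
    (he3 : ∀ P, LinearIndependent k fun i => M.π (e i P))
    (he4 : ∀ i, (fun P => (e i P : F)) ∈ famSpan M 𝓗 (riemannRochSpace (Finsupp.single v n)))
    (u : V → F) (hu0 : ∀ P, u P ≠ 0)
    (hu : ∀ P, divisor K (u P) = E P + E (s P) + Z P - Finsupp.single v n) :
    ∃ u' : V → F, u' ∈ famSpan M 𝓗 (riemannRochSpace (Finsupp.single v n)) ∧
      ∀ P, ∃ y : M.W, (y : F) = u' P ∧ M.π y ≠ 0 ∧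
        divisor K (u' P) = E P + E (s P) + Z P - Finsupp.single v n := by
  classical
  haveI : Infinite k := IsAlgClosed.instInfinite
  haveI := Fintype.ofFinite V
  -- scale
  choose a ha hy hy' using fun P => exists_scaled M hk (hu0 P)
  have hdiv : ∀ (P : V) (c : K), c ≠ 0 →
      divisor K (c • u P) = E P + E (s P) + Z P - Finsupp.single v n := fun P c hc => by
    rw [divisor_smul hc, hu]
  have hmem : ∀ (P : V) (c : K), c ≠ 0 → c • u P ∈ riemannRochSpace (Finsupp.single v n - Z P) := by
    intro P c hc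
    rw [mem_L_of_divisor (smul_ne_zero hc (hu0 P)), hdiv P c hc]
    have h1 : (Finsupp.single v n - Z P + (E P + E (s P) + Z P - Finsupp.single v n)) =
        E P + E (s P) := by abel
    rw [h1]
    exact add_nonneg (hcomp P).nonneg (hcomp (s P)).nonneg
  choose b hb using fun P => he2 P ⟨a P • u P, hy P⟩ (hmem P _ (ha P))
  have hYne : ∀ P, (fun i => algebraMap A k (b P i)) ≠ 0 := by
    intro P h0
    apply hy' P
    rw [hb P, π_sum_smul]
    refine Finset.sum_eq_zero fun i _ => ?_
    have := congrFun h0 i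
    simp only [Pi.zero_apply] at this
    rw [this, zero_smul]
  -- a normalising functional
  obtain ⟨l, hl⟩ : ∃ l : τ → k, ∀ P, ∑ i, l i * algebraMap A k (b P i) ≠ 0 := by
    let φ : V → ((τ → k) →ₗ[k] k) := fun P =>
      { toFun := fun l => ∑ i, l i * algebraMap A k (b P i)
        map_add' := fun x y => by simp [add_mul, Finset.sum_add_distrib]
        map_smul' := fun c x => by simp [Finset.mul_sum, mul_assoc] }
    have hφ : ∀ P, LinearMap.ker (φ P) ≠ ⊤ := by
      intro P h
      apply hYne P
      funext i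
      have h1 : (Pi.single i 1 : _ → k) ∈ LinearMap.ker (φ P) := by rw [h]; trivial
      rw [LinearMap.mem_ker] at h1
      change ∑ j, (Pi.single i 1 : _ → k) j * algebraMap A k (b P j) = 0 at h1
      rw [Finset.sum_eq_single i] at h1
      · rw [Pi.single_eq_same, one_mul] at h1
        exact h1
      · intro j _ hj
        rw [Pi.single_eq_of_ne hj, zero_mul]
      · intro h2; exact absurd (Finset.mem_univ _) h2
    obtain ⟨l, hl⟩ := Submodule.exists_forall_notMem_of_forall_ne_top _ hφ
    exact ⟨l, hl⟩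
  choose lA hlA using fun i => hk (l i)
  have hnu : ∀ P, IsUnit (∑ i, lA i * b P i) := fun P =>
    isUnit_of_ne hk _ (by rw [map_sum]; simpa only [map_mul, hlA] using hl P)
  choose nu hnu using hnu
  let a' : τ → V → A := fun i P => (↑(nu P)⁻¹ : A) * b P i
  let y' : V → M.W := fun P => ∑ i, a' i P • e i P
  have hy'W : ∀ P, y' P = (↑(nu P)⁻¹ : A) • (⟨a P • u P, hy P⟩ : M.W) := by
    intro P
    rw [hb P, Finset.smul_sum]
    exact Finset.sum_congr rfl fun i _ => by rw [smul_smul]
  have hy'F : ∀ P, (y' P : F) = (algebraMap A K (↑(nu P)⁻¹ : A) * a P) • u P := by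
    intro P
    rw [hy'W, coe_smul_W, mul_smul]
  have hcne : ∀ P, algebraMap A K (↑(nu P)⁻¹ : A) * a P ≠ 0 := fun P =>
    mul_ne_zero (by
      rw [Ne, IsFractionRing.to_map_eq_zero_iff (K := K)]
      exact Units.ne_zero _) (ha P)
  have hdivy : ∀ P, divisor K (y' P : F) = E P + E (s P) + Z P - Finsupp.single v n := fun P => by
    rw [hy'F, hdiv P _ (hcne P)]
  have hπne : ∀ P, M.π (y' P) ≠ 0 := by
    intro P h0
    rw [hy'W, map_smul, ← algebraMap_smul k, smul_eq_zero] at h0
    rcases h0 with h0 | h0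
    · have h2 : IsUnit (algebraMap A k (↑(nu P)⁻¹ : A)) :=
        (Units.isUnit _).map (algebraMap A k)
      exact h2.ne_zero h0
    · exact hy' P h0
  have he0 : ∀ i P, (e i P : F) ∈ II v 0 := fun i P =>
    II_mono (hZ P) (L_le_II n (he1 i P))
  choose cE hcE using fun i P => (hcomp P).exists_coord hv (he0 i P)
  have hcEm : ∀ i j, (fun P => cE i P j) ∈ 𝓗 := fun i j =>
    fam_coord 𝓓 hv hcomp h𝓗 (L_single_le_II n) (he4 i) (fun P => hcE i P) j
  have hmemH : ∀ i, a' i ∈ 𝓗 := by
    refine mem_of_linear hk (isUnit_of_ne hk) 𝓗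
      (fun (o : Option ι) i => o.elim (fun _ => lA i) (fun j P => cE i P j)) ?_ a'
      (fun o => o.elim (fun _ => 1) (fun _ _ => 0)) ?_ ?_ ?_
    · rintro (_ | j) i
      · exact 𝓗.algebraMap_mem (lA i)
      · exact hcEm i j
    · rintro (_ | j)
      · exact one_mem _
      · exact zero_mem _
    · rintro (_ | j) P
      · change ∑ i, lA i * ((↑(nu P)⁻¹ : A) * b P i) = 1
        have : ∑ i, lA i * ((↑(nu P)⁻¹ : A) * b P i) =
            (↑(nu P)⁻¹ : A) * ∑ i, lA i * b P i := by
          rw [Finset.mul_sum]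
          exact Finset.sum_congr rfl fun i _ => by ring
        rw [this, ← hnu P, Units.inv_mul]
      · change ∑ i, cE i P j * a' i P = 0
        have h1 : ((∑ j, (∑ i, cE i P j * a' i P) • ws j : M.W) : F) ∈ II v (E P) := by
          have h2 : (∑ j, (∑ i, cE i P j * a' i P) • ws j : M.W) =
              y' P - ∑ i, a' i P • (e i P - ∑ j, cE i P j • ws j) := by
            simp only [y', smul_sub, Finset.sum_sub_distrib, sub_sub_cancel, Finset.smul_sum,
              smul_smul, Finset.sum_smul]
            rw [Finset.sum_comm]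
            exact Finset.sum_congr rfl fun j _ => Finset.sum_congr rfl fun i _ => by
              rw [mul_comm]
          rw [h2, Subalgebra.coe_sub]
          refine Submodule.sub_mem _ ?_ ?_
          · have h3 : (y' P : F) ≠ 0 := by
              rw [hy'F]; exact smul_ne_zero (hcne P) (hu0 P)
            intro p hp
            refine Ge.of_le ?_
            rw [← divisor_apply (K := K), hdivy P, Finsupp.sub_apply,
              Finsupp.single_eq_of_ne hp, Finsupp.add_apply, Finsupp.add_apply, sub_zero]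
            have h4 := (hcomp (s P)).nonneg p
            have h5 := hZ P p
            simp only [Finsupp.coe_zero, Pi.zero_apply] at h4 h5
            omega
          · rw [coe_sum_smul]
            refine Submodule.sum_mem _ fun i _ => Submodule.smul_mem _ _ ?_
            rw [Subalgebra.coe_sub]
            exact hcE i P
        have h4 := (hcomp P).unique0 hv h1
        exact congrFun h4 j
    · intro P t ht
      have h1 : ∑ i, t i • M.π (e i P) ∈ II w (𝓓.r (E P)) :=
        red_comb 𝓓 hv (fun i => e i P) (fun i => cE i P) (fun i => hcE i P) t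
          (fun j => ht (some j))
      have h2 : ∑ i, t i • M.π (e i P) ∈ riemannRochSpace (Finsupp.single w n - Zk) := by
        refine Submodule.sum_mem _ fun i _ => Submodule.smul_mem _ _ ?_
        have h3 := 𝓓.π_mem (e i P).2 (he1 i P)
        rw [map_sub, r_single_n 𝓓 hv, hZr] at h3
        exact h3
      have h3 := mem_L_disj' 𝓓 hEw Zk hZw hdisj h2 h1
      have h4 : divisor k (M.π (y' P)) = 𝓓.r (E P) + 𝓓.r (E (s P)) + Zk -
          Finsupp.single w n := by
        rw [← 𝓓.r_divisor (y' P).2 (hπne P), hdivy P, map_sub, map_add, map_add,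
          r_single_n 𝓓 hv, hZr]
      have h5 : Finsupp.single w n - Zk - 𝓓.r (E P) =
          𝓓.r (E (s P)) - divisor k (M.π (y' P)) := by
        rw [h4]; abel
      rw [h5] at h3
      have h6 : M.π (y' P) ∈ riemannRochSpace (𝓓.r (E (s P)) - divisor k (M.π (y' P))) := by
        have h7 := (mul_mem_L_iff (hπne P) (𝓓.r (E (s P))) 1).2
          (DivRed.one_mem_L.2 (𝓓.r_nonneg (hcomp (s P)).nonneg))
        rwa [mul_one] at h7
      obtain ⟨c, hc⟩ : ∃ c : k, c • M.π (y' P) = ∑ i, t i • M.π (e i P) := by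
        have h7 : ell (𝓓.r (E (s P)) - divisor k (M.π (y' P))) ≤ 1 := by
          rw [ell_sub_divisor (hπne P)]; exact hell (s P)
        let y0 : riemannRochSpace (𝓓.r (E (s P)) - divisor k (M.π (y' P))) := ⟨_, h6⟩
        have hy0 : y0 ≠ 0 := fun h => hπne P (congrArg Subtype.val h)
        have h8 : finrank k (riemannRochSpace (𝓓.r (E (s P)) - divisor k (M.π (y' P)))) = 1 := by
          have h9 : 0 < finrank k
              (riemannRochSpace (𝓓.r (E (s P)) - divisor k (M.π (y' P)))) :=
            Module.finrank_pos_iff_exists_ne_zero.2 ⟨y0, hy0⟩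
          rw [ell] at h7
          omega
        obtain ⟨c, hc⟩ := (finrank_eq_one_iff_of_nonzero' y0 hy0).1 h8 ⟨_, h3⟩
        exact ⟨c, congrArg Subtype.val hc⟩
      have h7 : ∑ i, (t i - c * algebraMap A k (a' i P)) • M.π (e i P) = 0 := by
        simp only [sub_smul, Finset.sum_sub_distrib, mul_smul, ← Finset.smul_sum]
        rw [sub_eq_zero]
        refine hc.symm.trans ?_
        congr 1
        exact π_sum_smul _ _
      have h8 : ∀ i, t i = c * algebraMap A k (a' i P) := fun i =>
        sub_eq_zero.1 (Fintype.linearIndependent_iff.1 (he3 P) _ h7 i)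
      have h9 := ht none
      have h10 : ∑ i, algebraMap A k (lA i) * algebraMap A k (a' i P) = 1 := by
        rw [← map_one (algebraMap A k), ← Units.inv_mul (nu P), hnu P, Finset.mul_sum, map_sum]
        refine Finset.sum_congr rfl fun i _ => ?_
        rw [← map_mul]
        congr 1
        simp only [a']
        ring
      have h11 : c = 0 := by
        have h12 : ∑ i, algebraMap A k (lA i) * t i = 0 := h9
        rw [← mul_one c, ← h10, Finset.mul_sum, ← h12]
        refine Finset.sum_congr rfl fun i _ => ?_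
        rw [h8]; ring
      funext i
      rw [h8, h11, zero_mul]; rfl
  refine ⟨fun P => y' P, ?_, fun P => ⟨y' P, rfl, hπne P, hdivy P⟩⟩
  have h1 : (fun P => (y' P : F)) = fun P => ∑ i, algebraMap A K (a' i P) • (e i P : F) := by
    funext P
    exact coe_sum_smul _ _
  rw [h1]
  exact fam_sum hmemH he4

end

end Fermat.Agent.MzC
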