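import Fermat.Agent.MzC.JZ

/-!
# The specialization map of `J₀(N)`, with connected kernel
-/

set_option autoImplicit false
set_option linter.style.haveILetI false
set_option linter.unusedSectionVars false
set_option synthInstance.maxHeartbeats 400000

noncomputable section

namespace Fermat.Agent.MzC

open ModularCurve Polynomial IntermediateField Fermat.Agent.ModPoly AlgebraicCurve
open Fermat.Agent.RR Fermat.Agent.Cusp Fermat.Agent.RedMod Fermat.Agent.HeckeProd
open Fermat.Agent.Spec Fermat.Agent.Spec.LevelRed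

local notation "Ω" => AlgebraicClosure ℚ

local notation "𝒢" => (AlgebraicClosure ℚ) ≃ₐ[ℚ] (AlgebraicClosure ℚ)

attribute [local instance] algI isScalarTower_algI

variable {A : ValuationSubring (AlgebraicClosure ℚ)} {ℓ : ℕ} [hℓ : Fact ℓ.Prime] {N : ℕ} [NeZero N]

/-- the properties of a specialization map -/
structure IsSp (A : ValuationSubring (AlgebraicClosure ℚ)) (ℓ : ℕ) [hℓ : Fact ℓ.Prime] (N : ℕ)
    [NeZero N] {P : Type} [AddCommGroup P] (f : JZero N →+ P) (Φ Φi : P →+ P) : Prop where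
  surj : Function.Surjective f
  inv : ∀ y, Φi (Φ y) = y
  hecke : ∀ q : Nat.Primes, (q : ℕ) ≠ ℓ → ∀ x, f x = 0 → f (heckeOperatorBar N q x) = 0
  es : ∀ x, f (heckeOperatorBar N ⟨ℓ, hℓ.out⟩ x) = Φ (f x) + ℓ • Φi (f x)
  inertia : ∀ σ ∈ A.inertiaSubgroupIn ℚ, ∀ x, f (σ • x) = f x
  frob : ∀ σ : 𝒢, A.IsFrobeniusAt σ ℓ → ∀ x, f (σ • x) = Φ (f x)
  inj : ∀ m : ℕ, ¬ ℓ ∣ m → ∀ x, m • x = 0 → f x = 0 → x = 0
  conn : ConnKer A N f

/-- **The specialization map defined by any reduction has all the good properties.** -/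
theorem isSp_levelRed [IsAlgClosed (IsLocalRing.ResidueField A)]
    [CharP (IsLocalRing.ResidueField A) ℓ] (hA : A.LiesOverPrime ℓ) (hN : ¬ ℓ ∣ N)
    [FunField (IsLocalRing.ResidueField A) (FF (IsLocalRing.ResidueField A) N)]
    (S : LevelRed (IsLocalRing.residue_surjective (R := A)) (EB Ω N)
      (FF (IsLocalRing.ResidueField A) N)) :
    haveI : PerfectRing (IsLocalRing.ResidueField A) ℓ := inferInstance
    IsSp A ℓ N S.D.sp
      (DistribSMul.toAddMonoidHom _ (frobAut (IsLocalRing.ResidueField A) N ℓ))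
      (DistribSMul.toAddMonoidHom _ (frobAut (IsLocalRing.ResidueField A) N ℓ)⁻¹) := by
  have hk : Function.Surjective (algebraMap A (IsLocalRing.ResidueField A)) :=
    IsLocalRing.residue_surjective
  have hdvd : ∀ n : ℕ, ¬ ℓ ∣ n → (n : IsLocalRing.ResidueField A) ≠ 0 :=
    fun n hn => natCast_residue_ne_zero hA hn
  have hNk := hdvd N hN
  obtain ⟨ι⟩ := exists_ιC
  haveI : PerfectRing (IsLocalRing.ResidueField A) ℓ := inferInstance
  refine ⟨S.D.sp_surjective, fun y => inv_smul_smul _ y, ?_, ?_, ?_, ?_, ?_, ?_⟩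
  · intro q hq x hx
    haveI : NeZero (q : ℕ) := ⟨q.2.ne_zero⟩
    have hq' : ¬ ℓ ∣ (q : ℕ) := fun h => hq ((Nat.prime_dvd_prime_iff_eq hℓ.out q.2).1 h).symm
    have hM : ((N * q : ℕ) : IsLocalRing.ResidueField A) ≠ 0 :=
      hdvd _ (fun h => by rcases (Nat.Prime.dvd_mul hℓ.out).1 h with h | h <;> contradiction)
    haveI : NeZero (N * (q : ℕ)) := ⟨mul_ne_zero (NeZero.ne N) (NeZero.ne (q : ℕ))⟩
    haveI := funField_FF (k := IsLocalRing.ResidueField A) (M := N * q) hM
    obtain ⟨S₁⟩ := nonempty_levelRed (A := A) (K := Ω) (k := IsLocalRing.ResidueField A) ι hk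
      (N := N * q) hM (EB Ω (N * q)) (X0Genus.baseChange_eq Ω (N * q))
    haveI : HasPrincipalDivisors (IsLocalRing.ResidueField A)
      (FF (IsLocalRing.ResidueField A) (N * q)) := hasPrincipalDivisors'
    exact sp_hecke_zero (q : ℕ) hM S S₁ x hx
  · intro x
    haveI : NeZero ℓ := ⟨hℓ.out.ne_zero⟩
    obtain ⟨ζ, hζ⟩ := exists_zeta_ell Ω ℓ
    refine sp_hecke_ell S hN hζ ?_ x
    intro x y h
    rw [rd_iff_redTo] at h ⊢
    exact h.TT hζ
  · intro σ hσ x
    have h1 := S.sp_smul (redTo_id_of_inertia hσ) (arithmeticGalois (modularFunctionFieldFull N) σ)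
      (1 : SemilinearAut (IsLocalRing.ResidueField A) (FF (IsLocalRing.ResidueField A) N))
      (fun x => rfl) (fun y => rfl) x
    rw [one_smul] at h1
    exact h1
  · intro σ hσ x
    exact S.sp_smul (redTo_Fr_of_isFrobeniusAt hσ)
      (arithmeticGalois (modularFunctionFieldFull N) σ)
      (frobAut (IsLocalRing.ResidueField A) N ℓ)
      (fun x => rfl) (fun y => coe_frobAut_smul ℓ y) x
  · intro m hm x hx h0
    exact sp_injective_torsion ι hNk (exists_nonunit hA)
      (fun a c ha hc => rank_one hA a c ha hc) (X0Genus.baseChange_eq Ω N) S (hdvd m hm) x hx h0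
  · intro V _ _ act φ hφ hφeq
    obtain ⟨H, hH, hH'⟩ := exists_conn_J hA hNk S act φ hφ hφeq
    exact ⟨H, hH, fun T hT g hg => mOm_nonunits (hk := hk) (hH' T hT g hg)⟩

/-- **The specialization map of `J₀(N)`** at a prime not dividing the level, with the
connectedness of its kernel. -/
theorem exists_isSp (hA : A.LiesOverPrime ℓ) (hN : ¬ ℓ ∣ N) :
    ∃ (P : Type) (_ : AddCommGroup P) (f : JZero N →+ P) (Φ Φi : P →+ P), IsSp A ℓ N f Φ Φi := by
  haveI : CharP (IsLocalRing.ResidueField A) ℓ := RedMod.charP_residue hA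
  haveI : IsAlgClosed (IsLocalRing.ResidueField A) := isAlgClosed_residueField A
  have hk : Function.Surjective (algebraMap A (IsLocalRing.ResidueField A)) :=
    IsLocalRing.residue_surjective
  have hNk : (N : IsLocalRing.ResidueField A) ≠ 0 := natCast_residue_ne_zero hA hN
  haveI := funField_FF (k := IsLocalRing.ResidueField A) (M := N) hNk
  obtain ⟨ι⟩ := exists_ιC
  obtain ⟨S⟩ := nonempty_levelRed (A := A) (K := Ω) (k := IsLocalRing.ResidueField A) ι hk
    (N := N) hNk (EB Ω N) (X0Genus.baseChange_eq Ω N)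
  exact ⟨_, inferInstance, _, _, _, isSp_levelRed hA hN S⟩

end Fermat.Agent.MzC
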